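import Fermat.Agent.ErdosTetali.Sums
import Mathlib.Analysis.SpecialFunctions.Pow.Asymptotics
import Mathlib.Order.Filter.Ultrafilter.Basic
import Mathlib.Order.Filter.Cofinite

/-!
# The Erdős–Tetali theorem

For every `h ≥ 2` there is a set `A` of natural numbers in which every large `n` has between
`c₁ log n` and `c₂ log n` representations as a sum of `h` elements.
-/

set_option autoImplicit false

noncomputable section

namespace FA.ErdosTetali

open Finset Filter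

variable {h : ℕ} {C : ℝ}

open Classical in
/-- The indicator of a proposition. -/
def ind (P : Prop) : ℝ := if P then 1 else 0

theorem ind_eq (P : Prop) [Decidable P] : ind P = if P then 1 else 0 := by
  classical
  rw [ind]; split_ifs <;> rfl

theorem ind_nonneg (P : Prop) : 0 ≤ ind P := by
  classical
  rw [ind_eq]; split_ifs <;> norm_num

theorem ind_or_le (P Q : Prop) : ind (P ∨ Q) ≤ ind P + ind Q := by
  classical
  simp only [ind_eq]
  by_cases hP : P <;> by_cases hQ : Q <;> simp [hP, hQ]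

theorem pmean_exists_le {ι γ : Type*} [DecidableEq ι] {p : ι → ℝ} {U : Finset ι} (hp : IsWeight p)
    (T : Finset γ) (P : γ → Finset ι → Prop) :
    pmean p U (fun S => ind (∃ c ∈ T, P c S)) ≤ ∑ c ∈ T, pmean p U (fun S => ind (P c S)) := by
  classical
  rw [← pmean_sum]
  refine pmean_mono hp fun S _ => ?_
  by_cases hS : ∃ c ∈ T, P c S
  · obtain ⟨c, hc, hPc⟩ := hS
    refine le_trans ?_ (single_le_sum (fun d _ => ind_nonneg (P d S)) hc)
    simp [ind_eq, hPc, (⟨c, hc, hPc⟩ : ∃ c ∈ T, P c S)]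
  · simp only [ind_eq, hS, if_false]
    exact sum_nonneg fun c _ => by split_ifs <;> norm_num

theorem eventually_mul_lg_pow_le (B : ℝ) (k : ℕ) {s : ℝ} (hs : 0 < s) :
    ∀ᶠ n : ℕ in atTop, B * lg n ^ k ≤ ((n : ℝ) + 1) ^ s := by
  obtain ⟨ε, hε⟩ : ∃ ε : ℝ, ε = s / (2 * (k + 1)) := ⟨_, rfl⟩
  have hε0 : 0 < ε := hε ▸ by positivity
  have hlim : Tendsto (fun n : ℕ => ((n : ℝ) + 1) ^ (s / 2)) atTop atTop :=
    (tendsto_rpow_atTop (by positivity)).comp
      (tendsto_atTop_add_const_right _ 1 tendsto_natCast_atTop_atTop)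
  filter_upwards [hlim.eventually_ge_atTop (|B| * (1 + 1 / ε) ^ k)] with n hn
  have hx : (1 : ℝ) ≤ (n : ℝ) + 1 := by linarith [(Nat.cast_nonneg' n : (0 : ℝ) ≤ n)]
  have h1 : lg n ≤ (1 + 1 / ε) * ((n : ℝ) + 1) ^ ε := by
    have h2 := Real.log_le_rpow_div (zero_le_one.trans hx) hε0
    have h3 := Real.one_le_rpow hx hε0.le
    rw [div_eq_mul_one_div, mul_comm] at h2
    rw [lg, add_mul, one_mul]
    linarith
  have h4 : (((n : ℝ) + 1) ^ ε) ^ k ≤ ((n : ℝ) + 1) ^ (s / 2) := by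
    rw [← Real.rpow_natCast, ← Real.rpow_mul (by linarith)]
    refine Real.rpow_le_rpow_of_exponent_le hx ?_
    rw [hε, div_mul_eq_mul_div, div_le_div_iff₀ (by positivity) two_pos]
    nlinarith
  calc B * lg n ^ k ≤ |B| * ((1 + 1 / ε) * ((n : ℝ) + 1) ^ ε) ^ k :=
        mul_le_mul (le_abs_self B) (pow_le_pow_left₀ (lg_pos n).le h1 k)
          (pow_nonneg (lg_pos n).le k) (abs_nonneg B)
    _ = |B| * (1 + 1 / ε) ^ k * (((n : ℝ) + 1) ^ ε) ^ k := by rw [mul_pow, mul_assoc]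
    _ ≤ ((n : ℝ) + 1) ^ (s / 2) * ((n : ℝ) + 1) ^ (s / 2) :=
        mul_le_mul hn h4 (by positivity) (by positivity)
    _ = ((n : ℝ) + 1) ^ s := by rw [← Real.rpow_add (by linarith), add_halves]

theorem exp_neg_two_lg_le (n : ℕ) {x : ℝ} (hx : x ≤ -2 * lg n) :
    Real.exp x ≤ (((n : ℝ) + 1) ^ 2)⁻¹ := by
  have hn : (0 : ℝ) < (n : ℝ) + 1 := by positivity
  rw [← Real.exp_log (inv_pos.2 (pow_pos hn 2)), Real.exp_le_exp, Real.log_inv, Real.log_pow]
  rw [lg] at hx
  push_cast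
  linarith

theorem prod_image_eq {ℓ : ℕ} (f : ℕ → ℝ) {a : Fin ℓ → ℕ} (ha : Function.Injective a) :
    ∏ x ∈ univ.image a, f x = ∏ i, f (a i) :=
  prod_image ha.injOn

theorem mem_solsIn {A : Set ℕ} {ℓ : ℕ} {c : Fin ℓ → ℕ} {n : ℕ} {a : Fin ℓ → ℕ} :
    a ∈ solsIn A c n ↔ a ∈ sols c n ∧ ∀ i, a i ∈ A := by
  classical
  simp [solsIn]

theorem pmean_not_noDisjoint_le {ℓ : ℕ} (hC : 0 ≤ C) (c : Fin ℓ → ℕ) {n N : ℕ} (hn : n ≤ N)
    (k : ℕ) :
    pmean (density h C) (range (N + 1)) (fun S => ind ¬NoDisjoint (S : Set ℕ) c n k) ≤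
      (∑ a ∈ sols c n, ∏ i, density h C (a i)) ^ k / k.factorial := by
  classical
  simp only [ind_eq]
  rw [← sum_congr rfl fun a ha => prod_image_eq (density h C) (mem_sols.1 ha).2.1]
  refine pmean_disjoint_le (isWeight_density hC) (sols c n) (φ := fun a => univ.image a)
    (fun a ha x hx => ?_) k _ fun S _ hS => ?_
  · obtain ⟨i, -, rfl⟩ := mem_image.1 hx
    exact mem_range.2 (Nat.lt_succ_of_le (((mem_sols.1 ha).1 i).trans hn))
  · simp only [NoDisjoint, not_forall, not_not, exists_prop] at hS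
    obtain ⟨T, hT, hdis⟩ := hS
    obtain ⟨hT1, hT2⟩ := mem_powersetCard.1 hT
    refine ⟨T, mem_powersetCard.2 ⟨fun a ha => ?_, hT2⟩, hdis, fun a ha x hx => ?_⟩
    · exact (mem_solsIn.1 (hT1 ha)).1
    · obtain ⟨i, -, rfl⟩ := mem_image.1 hx
      exact Finset.mem_coe.1 ((mem_solsIn.1 (hT1 ha)).2 i)

/-- Increasing solutions of `a 1 + ⋯ + a h = n` with every entry at least `n / (4 h ^ 2)`. -/
def spread (h n : ℕ) : Finset (Fin h → ℕ) :=
  (sols (fun _ : Fin h => 1) n).filter fun a => StrictMono a ∧ ∀ i, n / (4 * h ^ 2) ≤ a i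

theorem spread_spec {n : ℕ} {a : Fin h → ℕ} (ha : a ∈ spread h n) :
    (∀ i, a i ≤ n) ∧ ∑ i, a i = n ∧ StrictMono a ∧ ∀ i, n / (4 * h ^ 2) ≤ a i := by
  obtain ⟨h1, h2, h3⟩ := mem_filter.1 ha
  obtain ⟨h4, -, h5⟩ := mem_sols.1 h1
  exact ⟨h4, by simpa using h5, h2, h3⟩

/-- **The mean number of spread representations.** -/
theorem le_sum_weight_spread {m : ℕ} (hC : 0 ≤ C) {n : ℕ} (hn : 16 * (m + 1) ^ 4 ≤ n) {q : ℝ}
    (hq0 : 0 ≤ q)
    (hq : ∀ a, n / (4 * (m + 1) ^ 2) ≤ a → a ≤ n → q ≤ density (m + 1) C a) :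
    ((n / (4 * (m + 1) ^ 2) : ℕ) : ℝ) ^ m * q ^ (m + 1) ≤
      ∑ a ∈ spread (m + 1) n, ∏ i, density (m + 1) C (a i) := by
  obtain ⟨w, hw⟩ : ∃ w, w = n / (4 * (m + 1) ^ 2) := ⟨_, rfl⟩
  obtain ⟨X, hX⟩ : ∃ X : Finset (Fin m → ℕ),
      X = Fintype.piFinset fun i : Fin m => Ico ((i.val + 1) * w) ((i.val + 2) * w) := ⟨_, rfl⟩
  rw [← hw]
  have hmem : ∀ x ∈ X, Fin.snoc x (n - ∑ i, x i) ∈ spread (m + 1) n := by
    intro x hx
    have hxi : ∀ i : Fin m, (i.val + 1) * w ≤ x i ∧ x i < (i.val + 2) * w := fun i =>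
      mem_Ico.1 (Fintype.mem_piFinset.1 (hX ▸ hx) i)
    have hx1 : ∀ i, x i ≤ (m + 1) * w := fun i =>
      (hxi i).2.le.trans (Nat.mul_le_mul_right _ (by omega))
    have hsum : ∑ i, x i ≤ m * ((m + 1) * w) :=
      (sum_le_card_nsmul univ _ _ fun i _ => hx1 i).trans (by simp)
    have hwn : 4 * (m + 1) ^ 2 * w ≤ n := hw ▸ Nat.mul_div_le n _
    have hbig : (m + 1) * w + ∑ i, x i + ∑ i, x i ≤ n := by nlinarith
    have hw1 : 1 ≤ w := by
      rw [hw]
      exact (Nat.one_le_div_iff (by positivity)).2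
        (le_trans (Nat.mul_le_mul (by norm_num) (Nat.pow_le_pow_right (by omega) (by norm_num))) hn)
    have hsnoc : ∀ i : Fin (m + 1), w ≤ (Fin.snoc x (n - ∑ i, x i) : Fin (m + 1) → ℕ) i ∧
        (Fin.snoc x (n - ∑ i, x i) : Fin (m + 1) → ℕ) i ≤ n := by
      intro i
      cases i using Fin.lastCases with
      | last => rw [Fin.snoc_last]; constructor <;> nlinarith [Nat.sub_le n (∑ i, x i),
          Nat.sub_add_cancel (show ∑ i, x i ≤ n by omega)]
      | cast i =>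
        rw [Fin.snoc_castSucc]
        exact ⟨le_trans (Nat.le_mul_of_pos_left w i.val.succ_pos) (hxi i).1,
          (hx1 i).trans (by omega)⟩
    have hmono : StrictMono (Fin.snoc x (n - ∑ i, x i) : Fin (m + 1) → ℕ) := by
      intro i j hij
      cases j using Fin.lastCases with
      | last =>
        cases i using Fin.lastCases with
        | last => exact absurd hij (lt_irrefl _)
        | cast i =>
          rw [Fin.snoc_castSucc, Fin.snoc_last]
          have := (hxi i).2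
          have : (i.val + 2) * w ≤ (m + 1) * w := Nat.mul_le_mul_right _ (by omega)
          omega
      | cast j =>
        cases i using Fin.lastCases with
        | last => exact absurd hij (not_lt.2 (Fin.le_last _))
        | cast i =>
          rw [Fin.snoc_castSucc, Fin.snoc_castSucc]
          have hij' : i.val + 2 ≤ j.val + 1 := by
            have : i.val < j.val := hij
            omega
          exact ((hxi i).2.trans_le (Nat.mul_le_mul_right _ hij')).trans_le (hxi j).1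
    refine mem_filter.2 ⟨mem_sols.2 ⟨fun i => (hsnoc i).2, hmono.injective, ?_⟩, hmono,
      fun i => hw ▸ (hsnoc i).1⟩
    simp only [one_mul]
    rw [Fin.sum_univ_castSucc]
    simp only [Fin.snoc_castSucc, Fin.snoc_last]
    omega
  have hinj : Set.InjOn (fun x : Fin m → ℕ => (Fin.snoc x (n - ∑ i, x i) : Fin (m + 1) → ℕ)) X := by
    intro x _ y _ e
    funext i
    simpa [Fin.snoc_castSucc] using congrFun e i.castSucc
  have hsub : X.image (fun x : Fin m → ℕ => (Fin.snoc x (n - ∑ i, x i) : Fin (m + 1) → ℕ)) ⊆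
      spread (m + 1) n := fun a ha => by
    obtain ⟨x, hx, rfl⟩ := mem_image.1 ha
    exact hmem x hx
  refine le_trans ?_ (sum_le_sum_of_subset_of_nonneg hsub
    fun a _ _ => prod_nonneg fun i _ => (isWeight_density hC _).1)
  rw [sum_image hinj]
  refine le_trans (le_of_eq ?_) (card_nsmul_le_sum X _ (q ^ (m + 1)) fun x hx => ?_)
  · have hcard : X.card = w ^ m := by
      rw [hX, Fintype.card_piFinset, prod_congr rfl fun i _ => show
        (Ico ((i.val + 1) * w) ((i.val + 2) * w)).card = w by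
          rw [Nat.card_Ico, ← Nat.sub_mul, show i.val + 2 - (i.val + 1) = 1 by omega, one_mul]]
      simp
    rw [hcard, nsmul_eq_mul, Nat.cast_pow]
  · have hs := spread_spec (hmem x hx)
    calc q ^ (m + 1) = ∏ _i : Fin (m + 1), q := by simp
      _ ≤ _ := prod_le_prod (fun i _ => hq0) fun i _ => hq _ (hs.2.2.2 i) (hs.1 i)

/-- **Configurations meeting a fixed one.** -/
theorem sum_meeting_le (hh : 1 ≤ h) (hC : 0 ≤ C) {K : ℝ} (hK0 : 0 ≤ K)
    (hK : ∀ ℓ, 1 ≤ ℓ → ℓ ≤ h → ∀ c : Fin ℓ → ℕ, CoeffBox h c → ∀ n : ℕ,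
      ∑ a ∈ sols c n, ∏ i, density h C (a i) ≤ K * lg n * ((n : ℝ) + 1) ^ ((ℓ : ℝ) / h - 1))
    {n : ℕ} (hn : 1 ≤ n / (4 * h ^ 2)) {b : Fin h → ℕ} (hb : b ∈ spread h n) :
    ∑ a ∈ (spread h n).filter (fun a => a ≠ b ∧ ¬Disjoint (univ.image a) (univ.image b)),
        ∏ x ∈ univ.image a \ univ.image b, density h C x ≤
      ((h : ℝ) + 1) ^ h *
        (K * lg n * (((n / (4 * h ^ 2) : ℕ) : ℝ) + 1) ^ (-(1 / (h : ℝ)))) := by
  classical
  obtain ⟨w, hw⟩ : ∃ w, w = n / (4 * h ^ 2) := ⟨_, rfl⟩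
  rw [← hw] at hn ⊢
  obtain ⟨M, hM⟩ : ∃ M : Finset (Fin h → ℕ),
      M = (spread h n).filter fun a => a ≠ b ∧ ¬Disjoint (univ.image a) (univ.image b) := ⟨_, rfl⟩
  obtain ⟨κ, hκ⟩ : ∃ κ : (Fin h → ℕ) → Fin h → ℕ,
      κ = fun a i => if a i ∈ univ.image b then a i else 0 := ⟨_, rfl⟩
  obtain ⟨Y, hY⟩ : ∃ Y : Finset (Fin h → ℕ),
      Y = Fintype.piFinset fun _ => insert 0 (univ.image b) := ⟨_, rfl⟩
  rw [← hM, ← sum_fiberwise_of_maps_to (g := κ) (t := Y) fun a _ => ?_]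
  swap
  · rw [hY]
    refine Fintype.mem_piFinset.2 fun i => ?_
    rw [hκ]
    simp only
    split_ifs with h1
    · exact mem_insert_of_mem h1
    · exact mem_insert_self _ _
  have hYcard : (Y.card : ℝ) ≤ ((h : ℝ) + 1) ^ h := by
    have : Y.card ≤ (h + 1) ^ h := by
      rw [hY, Fintype.card_piFinset_const]
      exact Nat.pow_le_pow_left ((card_insert_le _ _).trans
        (Nat.add_le_add_right (card_image_le.trans (by simp)) 1)) h
    exact_mod_cast this
  refine (sum_le_card_nsmul Y _ (K * lg n * ((w : ℝ) + 1) ^ (-(1 / (h : ℝ)))) fun y _ => ?_).trans ?_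
  swap
  · rw [nsmul_eq_mul]
    exact mul_le_mul_of_nonneg_right hYcard
      (mul_nonneg (mul_nonneg hK0 (lg_pos n).le) (Real.rpow_nonneg (by positivity) _))
  have hnn : 0 ≤ K * lg n * ((w : ℝ) + 1) ^ (-(1 / (h : ℝ))) :=
    mul_nonneg (mul_nonneg hK0 (lg_pos n).le) (Real.rpow_nonneg (by positivity) _)
  obtain he | ⟨a₀, ha₀⟩ := (M.filter fun a => κ a = y).eq_empty_or_nonempty
  · rw [he, sum_empty]; exact hnn
  obtain ⟨R, hR⟩ : ∃ R : Finset (Fin h), R = univ.filter fun i => y i = 0 := ⟨_, rfl⟩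
  have hout : ∀ a ∈ M.filter (fun a => κ a = y), a ∈ spread h n ∧
      ∀ i, (i ∈ R ↔ a i ∉ univ.image b) ∧ (i ∉ R → a i = y i) := by
    intro a ha
    obtain ⟨haM, hay⟩ := mem_filter.1 ha
    have hs := (mem_filter.1 (hM ▸ haM)).1
    refine ⟨hs, fun i => ?_⟩
    have hai : a i ≠ 0 := by have := (spread_spec hs).2.2.2 i; omega
    have := congrFun hay i
    rw [hκ] at this
    simp only at this
    rw [hR]
    split_ifs at this with h1 <;> simp [h1, ← this, hai]
  have hRne : R.Nonempty := by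
    obtain ⟨hs₀, hi₀⟩ := hout a₀ ha₀
    by_contra hcon
    rw [not_nonempty_iff_eq_empty] at hcon
    have hsub : univ.image a₀ ⊆ univ.image b := fun x hx => by
      obtain ⟨i, -, rfl⟩ := mem_image.1 hx
      by_contra h1
      exact (Finset.notMem_empty i) (hcon ▸ (hi₀ i).1.2 h1)
    have hab := (spread_spec hs₀).2.2.1
    have hbm := (spread_spec hb).2.2.1
    have he : univ.image a₀ = univ.image b := eq_of_subset_of_card_le hsub (by
      rw [card_image_of_injective _ hab.injective, card_image_of_injective _ hbm.injective])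
    have : a₀ = b := (hab.range_inj hbm).1 (by
      simpa using congrArg (fun s : Finset ℕ => (s : Set ℕ)) he)
    exact (mem_filter.1 (hM ▸ (mem_filter.1 ha₀).1)).2.1 this
  obtain ⟨e, he⟩ : ∃ e : Fin R.card ↪o Fin h, e = R.orderEmbOfFin rfl := ⟨_, rfl⟩
  have hemap : univ.map e.toEmbedding = R := he ▸ R.map_orderEmbOfFin_univ rfl
  obtain ⟨r, hr⟩ : ∃ r, r = n - ∑ i, y i := ⟨_, rfl⟩
  have hsumR : ∀ a ∈ M.filter (fun a => κ a = y), ∑ j, a (e j) = r ∧ ∀ j, a (e j) ≤ r := by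
    intro a ha
    obtain ⟨hs, hi⟩ := hout a ha
    have h1 : ∑ i, y i + ∑ i ∈ R, a i = n := by
      rw [← (spread_spec hs).2.1, ← sum_sdiff (subset_univ R) (f := a), add_left_inj]
      rw [← sum_sdiff (subset_univ R) (f := y)]
      have h2 : ∑ i ∈ R, y i = 0 := sum_eq_zero fun i hiR => by
        rw [hR] at hiR; exact (mem_filter.1 hiR).2
      rw [h2, add_zero]
      exact sum_congr rfl fun i hiR => ((hi i).2 (Finset.mem_sdiff.1 hiR).2).symm
    have h3 : ∑ j, a (e j) = ∑ i ∈ R, a i := by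
      conv_rhs => rw [← hemap, sum_map]
      rfl
    refine ⟨by omega, fun j => ?_⟩
    have := single_le_sum (f := fun j => a (e j)) (fun j _ => Nat.zero_le _) (mem_univ j)
    omega
  have hwr : w ≤ r := by
    obtain ⟨h1, h2⟩ := hsumR a₀ ha₀
    exact le_trans (hw ▸ (spread_spec (hout a₀ ha₀).1).2.2.2 (e ⟨0, hRne.card_pos⟩))
      (h2 ⟨0, hRne.card_pos⟩)
  calc ∑ a ∈ M.filter (fun a => κ a = y), ∏ x ∈ univ.image a \ univ.image b, density h C x
      = ∑ a ∈ M.filter (fun a => κ a = y), ∏ j, density h C (a (e j)) := by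
        refine sum_congr rfl fun a ha => ?_
        obtain ⟨hs, hi⟩ := hout a ha
        have hset : univ.image a \ univ.image b = R.image a := by
          ext x
          simp only [Finset.mem_sdiff, mem_image, mem_univ, true_and]
          constructor
          · rintro ⟨⟨i, rfl⟩, hx⟩
            exact ⟨i, (hi i).1.2 (by simpa using hx), rfl⟩
          · rintro ⟨i, hiR, rfl⟩
            exact ⟨⟨i, rfl⟩, by simpa using (hi i).1.1 hiR⟩
        rw [hset, prod_image (spread_spec hs).2.2.1.injective.injOn]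
        conv_lhs => rw [← hemap, prod_map]
        rfl
    _ ≤ ∑ z ∈ sols (fun _ : Fin R.card => 1) r, ∏ j, density h C (z j) := by
        rw [← sum_image (g := fun (a : Fin h → ℕ) j => a (e j))
          (f := fun z => ∏ j, density h C (z j)) fun a ha a' ha' eq => ?_]
        · refine sum_le_sum_of_subset_of_nonneg (fun z hz => ?_)
            fun z _ _ => prod_nonneg fun j _ => (isWeight_density hC _).1
          obtain ⟨a, ha, rfl⟩ := mem_image.1 hz
          exact mem_sols.2 ⟨(hsumR a ha).2,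
            (spread_spec (hout a ha).1).2.2.1.injective.comp e.injective,
            by simpa using (hsumR a ha).1⟩
        · funext i
          by_cases hiR : i ∈ R
          · obtain ⟨j, -, rfl⟩ := mem_map.1 (hemap.symm ▸ hiR :)
            exact congrFun eq j
          · rw [((hout a ha).2 i).2 hiR, ((hout a' ha').2 i).2 hiR]
    _ ≤ K * lg r * ((r : ℝ) + 1) ^ ((R.card : ℝ) / h - 1) :=
        hK _ hRne.card_pos (card_finset_fin_le R) _ (fun _ => ⟨le_rfl, hh⟩) r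
    _ ≤ _ := by
        have hRlt : R.card + 1 ≤ h := by
          obtain ⟨hs₀, hi₀⟩ := hout a₀ ha₀
          have hmeet := (mem_filter.1 (hM ▸ (mem_filter.1 ha₀).1)).2.2
          rw [not_disjoint_iff] at hmeet
          obtain ⟨x, hxa, hxb⟩ := hmeet
          obtain ⟨i, -, rfl⟩ := mem_image.1 hxa
          have : R ⊂ univ := ssubset_univ_iff.2 fun hu =>
            (hi₀ i).1.1 (hu ▸ mem_univ i) hxb
          simpa using card_lt_card this
        have hh0 : (0 : ℝ) < h := Nat.cast_pos.2 hh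
        have hexp : (R.card : ℝ) / h - 1 ≤ -(1 / (h : ℝ)) := by
          have : (R.card : ℝ) + 1 ≤ h := by exact_mod_cast hRlt
          rw [sub_le_iff_le_add, neg_add_eq_sub, le_sub_iff_add_le, ← add_div, div_le_one hh0]
          exact this
        refine mul_le_mul (mul_le_mul_of_nonneg_left (lg_mono (by omega)) hK0) ?_
          (Real.rpow_nonneg (by positivity) _) (mul_nonneg hK0 (lg_pos n).le)
        refine (Real.rpow_le_rpow_of_exponent_le (by simp) hexp).trans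
          (Real.rpow_le_rpow_of_nonpos (by positivity) ?_ (neg_nonpos.2 (by positivity)))
        exact add_le_add (Nat.cast_le.2 hwr) le_rfl

/-- The conditions imposed on the set at `n`. -/
def Good (h : ℕ) (D : ℝ) (n : ℕ) (A : Set ℕ) : Prop :=
  (∀ ℓ, 1 ≤ ℓ → ℓ < h → ∀ c : Fin ℓ → ℕ, CoeffBox h c → NoDisjoint A c n (4 * h)) ∧
    NoDisjoint A (fun _ : Fin h => 1) n ⌈D * lg n⌉₊ ∧
      ∃ T ⊆ spread h n, (∀ a ∈ T, ∀ i, a i ∈ A) ∧ lg n < T.card

theorem solsIn_congr {A B : Set ℕ} {ℓ : ℕ} (c : Fin ℓ → ℕ) {n : ℕ}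
    (hAB : ∀ a ≤ n, (a ∈ A ↔ a ∈ B)) : solsIn A c n = solsIn B c n := by
  classical
  rw [solsIn, solsIn]
  exact filter_congr fun a ha => forall_congr' fun i => hAB _ ((mem_sols.1 ha).1 i)

theorem good_congr {D : ℝ} {n : ℕ} {A B : Set ℕ} (hAB : ∀ a ≤ n, (a ∈ A ↔ a ∈ B))
    (hA : Good h D n A) : Good h D n B := by
  obtain ⟨h1, h2, T, hT, hTA, hcard⟩ := hA
  refine ⟨fun ℓ hℓ hℓ' c hc => ?_, ?_, T, hT,
    fun a ha i => (hAB _ ((spread_spec (hT ha)).1 i)).1 (hTA a ha i), hcard⟩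
  · rw [NoDisjoint, ← solsIn_congr c hAB]; exact h1 ℓ hℓ hℓ' c hc
  · rw [NoDisjoint, ← solsIn_congr _ hAB]; exact h2

/-- **A bad event has probability `O (1 / n ^ 2)`.** -/
theorem exists_pmean_not_good_le (hh : 2 ≤ h) : ∃ C D : ℝ, 0 ≤ C ∧ 0 < D ∧
    ∀ᶠ n in atTop, ∀ N, n ≤ N → pmean (density h C) (range (N + 1))
      (fun S => ind ¬Good h D n (S : Set ℕ)) ≤
        ((h : ℝ) * (h : ℝ) ^ h + 2) * (((n : ℝ) + 1) ^ 2)⁻¹ := by
  classical
  obtain ⟨m, rfl⟩ : ∃ m, h = m + 1 := ⟨h - 1, by omega⟩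
  have hh1 : 1 ≤ m + 1 := by omega
  obtain ⟨H, hH⟩ : ∃ H : ℝ, H = ((m + 1 : ℕ) : ℝ) := ⟨_, rfl⟩
  have hH2 : (2 : ℝ) ≤ H := hH ▸ Nat.ofNat_le_cast.2 hh
  obtain ⟨C, hC⟩ : ∃ C : ℝ, C = 24 * (8 * H ^ 2) ^ (m + 1) := ⟨_, rfl⟩
  have hC1 : 1 ≤ C := by
    have h1 : (1 : ℝ) ≤ (8 * H ^ 2) ^ (m + 1) := one_le_pow₀ (by nlinarith)
    rw [hC]; linarith
  have hC0 : (0 : ℝ) ≤ C := by linarith
  obtain ⟨K, hK0, hK⟩ := exists_sum_weight_le (h := m + 1) hh1 hC1
  obtain ⟨D, hD⟩ : ∃ D : ℝ, D = max (Real.exp 2 * K) 3 := ⟨_, rfl⟩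
  have hD3 : 3 ≤ D := hD ▸ le_max_right _ _
  refine ⟨C, D, hC0, by linarith, ?_⟩
  obtain ⟨t, ht⟩ : ∃ t : ℝ, t = 1 / H := ⟨_, rfl⟩
  have ht0 : 0 < t := ht ▸ by positivity
  have ht2 : t ≤ 1 / 2 := ht ▸ by gcongr
  have hev1 := eventually_mul_lg_pow_le (K ^ (4 * (m + 1))) (4 * (m + 1)) two_pos
  have hev2 := eventually_mul_lg_pow_le (C * (4 * H ^ 2)) 1 (one_half_pos (α := ℝ))
  have hev3 := eventually_mul_lg_pow_le ((H + 1) ^ (m + 1) * K * (4 * H ^ 2)) 1 ht0
  filter_upwards [hev1, hev2, hev3, eventually_ge_atTop (16 * (m + 1) ^ 4)]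
    with n hn1 hn2 hn3 hn16 N hN
  rw [pow_one] at hn2 hn3
  have hp := isWeight_density (h := m + 1) hC0
  have hL := one_le_lg n
  have hx0 : (0 : ℝ) < (n : ℝ) + 1 := by positivity
  have hx1 : (1 : ℝ) ≤ (n : ℝ) + 1 := by linarith [(Nat.cast_nonneg' n : (0 : ℝ) ≤ n)]
  have part1 : ∀ ℓ ∈ Ico 1 (m + 1), ∀ c ∈ (Fintype.piFinset fun _ : Fin ℓ => Icc 1 (m + 1)),
      pmean (density (m + 1) C) (range (N + 1))
        (fun S => ind ¬NoDisjoint (S : Set ℕ) c n (4 * (m + 1))) ≤ (((n : ℝ) + 1) ^ 2)⁻¹ := by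
    intro ℓ hℓ c hc
    obtain ⟨hℓ1, hℓ2⟩ := mem_Ico.1 hℓ
    have hcb : CoeffBox (m + 1) c := fun i => mem_Icc.1 (Fintype.mem_piFinset.1 hc i)
    refine (pmean_not_noDisjoint_le hC0 c hN _).trans
      ((div_le_self (pow_nonneg (sum_nonneg fun a _ => prod_nonneg fun i _ => (hp _).1) _)
        (Nat.one_le_cast.2 (Nat.factorial_pos _))).trans ?_)
    have hb : ∑ a ∈ sols c n, ∏ i, density (m + 1) C (a i) ≤
        K * lg n * ((n : ℝ) + 1) ^ (-t) := by
      refine (hK ℓ hℓ1 hℓ2.le c hcb n).trans (mul_le_mul_of_nonneg_left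
        (Real.rpow_le_rpow_of_exponent_le hx1 ?_) (mul_nonneg hK0.le (lg_pos n).le))
      have : (ℓ : ℝ) + 1 ≤ H := by rw [hH]; exact_mod_cast hℓ2
      rw [ht, ← hH, sub_le_iff_le_add, neg_add_eq_sub, le_sub_iff_add_le, ← add_div,
        div_le_one (by linarith)]
      exact this
    refine (pow_le_pow_left₀ (sum_nonneg fun a _ => prod_nonneg fun i _ => (hp _).1) hb _).trans ?_
    rw [mul_pow, mul_pow]
    refine (mul_le_mul_of_nonneg_right hn1 (by positivity)).trans (le_of_eq ?_)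
    rw [← Real.rpow_natCast (((n : ℝ) + 1) ^ (-t)), ← Real.rpow_mul hx0.le, ← Real.rpow_add hx0,
      show (2 : ℝ) + -t * ((4 * (m + 1) : ℕ) : ℝ) = -((2 : ℕ) : ℝ) by
        rw [ht, Nat.cast_mul, ← hH]; field_simp; norm_num,
      Real.rpow_neg hx0.le, Real.rpow_natCast]
  have part2 : pmean (density (m + 1) C) (range (N + 1))
      (fun S => ind ¬NoDisjoint (S : Set ℕ) (fun _ : Fin (m + 1) => 1) n ⌈D * lg n⌉₊) ≤
        (((n : ℝ) + 1) ^ 2)⁻¹ := by
    obtain ⟨k, hk⟩ : ∃ k, k = ⌈D * lg n⌉₊ := ⟨_, rfl⟩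
    rw [← hk]
    refine (pmean_not_noDisjoint_le hC0 _ hN _).trans ?_
    obtain ⟨μ, hμ⟩ : ∃ μ, μ = ∑ a ∈ sols (fun _ : Fin (m + 1) => 1) n,
        ∏ i, density (m + 1) C (a i) := ⟨_, rfl⟩
    rw [← hμ]
    have hμ0 : 0 ≤ μ := hμ ▸ sum_nonneg fun a _ => prod_nonneg fun i _ => (hp _).1
    have hμK : μ ≤ K * lg n := by
      have h1 := hK (m + 1) hh1 le_rfl (fun _ => 1) (fun _ => ⟨le_rfl, hh1⟩) n
      rwa [← hμ, div_self (by positivity), sub_self, Real.rpow_zero, mul_one] at h1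
    have hkD : D * lg n ≤ k := hk ▸ Nat.le_ceil _
    have hkpos : (0 : ℝ) < k := lt_of_lt_of_le (mul_pos (by linarith) (lg_pos n)) hkD
    have hμk : μ / k ≤ Real.exp (-2) := by
      rw [Real.exp_neg, div_le_iff₀ hkpos, inv_mul_eq_div, le_div_iff₀ (Real.exp_pos 2)]
      refine (mul_le_mul_of_nonneg_right hμK (Real.exp_pos 2).le).trans ?_
      refine le_trans ?_ hkD
      rw [mul_right_comm]
      exact mul_le_mul_of_nonneg_right (by rw [mul_comm, hD]; exact le_max_left _ _) (lg_pos n).le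
    calc μ ^ k / (k.factorial : ℝ) = (μ / k) ^ k * ((k : ℝ) ^ k / k.factorial) := by
          rw [div_pow]; field_simp
      _ ≤ Real.exp (-2) ^ k * Real.exp k :=
          mul_le_mul (pow_le_pow_left₀ (by positivity) hμk _)
            (Real.pow_div_factorial_le_exp (k : ℝ) (Nat.cast_nonneg' k) k) (by positivity)
            (by positivity)
      _ ≤ _ := by
          rw [← Real.exp_nat_mul, ← Real.exp_add]
          refine exp_neg_two_lg_le n ?_
          nlinarith [lg_pos n]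
  have part3 : pmean (density (m + 1) C) (range (N + 1))
      (fun S => ind (((spread (m + 1) n).filter fun b => univ.image b ⊆ S).card ≤ ⌊lg n⌋₊)) ≤
        (((n : ℝ) + 1) ^ 2)⁻¹ := by
    simp only [ind_eq]
    refine (pmean_few_le hp (spread (m + 1) n) (φ := fun a => univ.image a) (fun b hb x hx => ?_)
      _).trans ?_
    · obtain ⟨i, -, rfl⟩ := mem_image.1 hx
      exact mem_range.2 (Nat.lt_succ_of_le (((spread_spec hb).1 i).trans hN))
    obtain ⟨w, hw⟩ : ∃ w, w = n / (4 * (m + 1) ^ 2) := ⟨_, rfl⟩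
    have hwbig : 4 * (m + 1) ^ 2 ≤ w := by
      rw [hw, Nat.le_div_iff_mul_le (by positivity)]
      exact le_trans (le_of_eq (by ring)) hn16
    have hnw : (n : ℝ) + 1 ≤ 4 * H ^ 2 * ((w : ℝ) + 1) := by
      have : n + 1 ≤ 4 * (m + 1) ^ 2 * (w + 1) := by
        rw [hw]; exact Nat.lt_mul_div_succ n (by positivity)
      rw [hH]; exact_mod_cast this
    have hwH : 4 * H ^ 2 ≤ (w : ℝ) := by rw [hH]; exact_mod_cast hwbig
    have hw1 : (1 : ℝ) ≤ w := by nlinarith
    obtain ⟨μ, hμ⟩ : ∃ μ, μ = ∑ b ∈ spread (m + 1) n,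
        ∏ x ∈ univ.image b, density (m + 1) C x := ⟨_, rfl⟩
    have hμ0 : 0 ≤ μ := hμ ▸ sum_nonneg fun b _ => prod_nonneg fun x _ => (hp _).1
    have hΔ : ∑ b ∈ spread (m + 1) n, ∑ c ∈ (spread (m + 1) n).filter
        (fun c => c ≠ b ∧ ¬Disjoint (univ.image c) (univ.image b)),
          (∏ x ∈ univ.image b, density (m + 1) C x) *
            ∏ x ∈ univ.image c \ univ.image b, density (m + 1) C x ≤ μ := by
      rw [hμ]
      refine sum_le_sum fun b hb => ?_
      rw [← mul_sum]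
      refine mul_le_of_le_one_right (prod_nonneg fun x _ => (hp _).1)
        ((sum_meeting_le hh1 hC0 hK0.le hK (hw ▸ (by nlinarith [hwbig] : 1 ≤ w)) hb).trans ?_)
      rw [← hw, ← hH, ← ht, Real.rpow_neg (by positivity), ← mul_assoc, ← div_eq_mul_inv,
        div_le_one (Real.rpow_pos_of_pos (by positivity) _)]
      refine le_of_mul_le_mul_right ?_ (show (0 : ℝ) < 4 * H ^ 2 by positivity)
      refine le_trans (le_of_eq (by ring)) (hn3.trans ?_)
      refine (Real.rpow_le_rpow hx0.le hnw ht0.le).trans ?_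
      rw [Real.mul_rpow (by positivity) (by positivity), mul_comm (_ ^ t)]
      refine mul_le_mul_of_nonneg_left ?_ (Real.rpow_nonneg (by positivity) _)
      exact (Real.rpow_le_rpow_of_exponent_le (by nlinarith) (by linarith)).trans
        (Real.rpow_one _).le
    have hq : ∀ a, w ≤ a → a ≤ n →
        C * (lg n / 2) ^ t * ((n : ℝ) + 1) ^ (t - 1) ≤ density (m + 1) C a := by
      intro a hwa han
      have hlgw : lg n / 2 ≤ lg a := by
        have h1 : (n : ℝ) + 1 ≤ ((w : ℝ) + 1) ^ 2 := by nlinarith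
        have h2 := Real.log_le_log hx0 h1
        rw [Real.log_pow] at h2
        have h3 := lg_mono hwa
        rw [lg] at h3 ⊢
        push_cast at h2
        linarith
      rw [density, ← hH, ← ht]
      refine le_min ?_ ?_
      · calc C * (lg n / 2) ^ t * ((n : ℝ) + 1) ^ (t - 1)
            ≤ C * lg n * ((n : ℝ) + 1) ^ (-(1 / 2) : ℝ) := by
              refine mul_le_mul (mul_le_mul_of_nonneg_left ?_ hC0)
                (Real.rpow_le_rpow_of_exponent_le hx1 (by linarith))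
                (Real.rpow_nonneg hx0.le _) (mul_nonneg hC0 (lg_pos n).le)
              exact ((Real.rpow_le_rpow (by positivity) (by linarith) ht0.le).trans
                (Real.rpow_le_rpow_of_exponent_le hL (by linarith))).trans (Real.rpow_one _).le
          _ ≤ 1 := by
              rw [Real.rpow_neg hx0.le, ← div_eq_mul_inv,
                div_le_one (Real.rpow_pos_of_pos hx0 _)]
              refine le_trans ?_ hn2
              exact mul_le_mul_of_nonneg_right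
                (le_mul_of_one_le_right hC0 (by nlinarith)) (lg_pos n).le
      · refine mul_le_mul (mul_le_mul_of_nonneg_left
          (Real.rpow_le_rpow (div_nonneg (lg_pos n).le two_pos.le) hlgw ht0.le) hC0)
          (Real.rpow_le_rpow_of_nonpos (by positivity)
            (add_le_add (Nat.cast_le.2 han) le_rfl) (by linarith))
          (Real.rpow_nonneg hx0.le _) (mul_nonneg hC0 (Real.rpow_nonneg (lg_pos a).le _))
    have hμbig : 12 * lg n ≤ μ := by
      rw [hμ, sum_congr rfl fun b hb => prod_image_eq (density (m + 1) C)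
        (spread_spec hb).2.2.1.injective]
      refine le_trans ?_ (le_sum_weight_spread hC0 hn16 (mul_nonneg (mul_nonneg hC0
        (Real.rpow_nonneg (div_nonneg (lg_pos n).le two_pos.le) _)) (Real.rpow_nonneg hx0.le _))
        fun a => hw ▸ hq a)
      rw [← hw, mul_pow, mul_pow, ← Real.rpow_natCast ((lg n / 2) ^ t),
        ← Real.rpow_mul (div_nonneg (lg_pos n).le two_pos.le), ← hH,
        show t * H = 1 by rw [ht]; field_simp, Real.rpow_one,
        ← Real.rpow_natCast (((n : ℝ) + 1) ^ (t - 1)), ← Real.rpow_mul hx0.le, ← hH,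
        show (t - 1) * H = -((m : ℕ) : ℝ) by
          rw [ht, sub_mul, div_mul_cancel₀ _ (by linarith), one_mul, hH]; push_cast; ring,
        Real.rpow_neg hx0.le, Real.rpow_natCast,
        show (w : ℝ) ^ m * (C ^ (m + 1) * (lg n / 2) * (((n : ℝ) + 1) ^ m)⁻¹) =
          (C ^ (m + 1) * (w : ℝ) ^ m / (2 * ((n : ℝ) + 1) ^ m)) * lg n by ring]
      refine mul_le_mul_of_nonneg_right ?_ (lg_pos n).le
      rw [le_div_iff₀ (by positivity)]
      calc 12 * (2 * ((n : ℝ) + 1) ^ m) = 24 * ((n : ℝ) + 1) ^ m := by ring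
        _ ≤ 24 * (8 * H ^ 2 * w) ^ m := by
            refine mul_le_mul_of_nonneg_left (pow_le_pow_left₀ hx0.le ?_ m) (by norm_num)
            nlinarith
        _ = 24 * (8 * H ^ 2) ^ m * (w : ℝ) ^ m := by rw [mul_pow, mul_assoc]
        _ ≤ C * (w : ℝ) ^ m := by
            refine mul_le_mul_of_nonneg_right ?_ (by positivity)
            rw [hC]
            exact mul_le_mul_of_nonneg_left
              (pow_le_pow_right₀ (by nlinarith) (Nat.le_succ m)) (by norm_num)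
        _ ≤ _ := mul_le_mul_of_nonneg_right (le_self_pow₀ hC1 (Nat.succ_ne_zero m)) (by positivity)
    rw [← hμ]
    have h2 : (2 : ℝ) ^ ⌊lg n⌋₊ ≤ Real.exp (lg n) := by
      refine (pow_le_pow_left₀ two_pos.le
        (by linarith [Real.add_one_le_exp (1 : ℝ)] : (2 : ℝ) ≤ Real.exp 1) _).trans ?_
      rw [← Real.exp_nat_mul, mul_one]
      exact Real.exp_le_exp.2 (Nat.floor_le (lg_pos n).le)
    refine (mul_le_mul_of_nonneg_right h2 (Real.exp_nonneg _)).trans ?_
    rw [← Real.exp_add]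
    refine exp_neg_two_lg_le n ?_
    linarith
  refine (pmean_mono hp (g := fun S => (ind (∃ ℓ ∈ Ico 1 (m + 1),
      ∃ c ∈ (Fintype.piFinset fun _ : Fin ℓ => Icc 1 (m + 1)),
        ¬NoDisjoint (S : Set ℕ) c n (4 * (m + 1))) +
      ind ¬NoDisjoint (S : Set ℕ) (fun _ : Fin (m + 1) => 1) n ⌈D * lg n⌉₊) +
      ind (((spread (m + 1) n).filter fun b => univ.image b ⊆ S).card ≤ ⌊lg n⌋₊))
    fun S _ => ?_).trans ?_
  · refine le_trans ?_ ((ind_or_le _ _).trans (add_le_add (ind_or_le _ _) le_rfl))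
    by_cases hgood : Good (m + 1) D n (S : Set ℕ)
    · rw [ind, if_neg (not_not.2 hgood)]
      exact ind_nonneg _
    rw [ind, if_pos hgood, ind, if_pos]
    by_contra hor
    refine hgood ⟨fun ℓ hℓ hℓ' c hc => ?_, ?_,
      (spread (m + 1) n).filter fun b => univ.image b ⊆ S, filter_subset _ _,
      fun a ha i => ?_, ?_⟩
    · by_contra hcon
      exact hor (Or.inl (Or.inl ⟨ℓ, mem_Ico.2 ⟨hℓ, hℓ'⟩, c,
        Fintype.mem_piFinset.2 fun i => mem_Icc.2 (hc i), hcon⟩))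
    · by_contra hcon
      exact hor (Or.inl (Or.inr hcon))
    · exact mem_coe.2 ((mem_filter.1 ha).2 (mem_image_of_mem a (mem_univ i)))
    · rw [← Nat.floor_lt (lg_pos n).le]
      exact not_le.1 fun hle => hor (Or.inr hle)
  rw [pmean_add, pmean_add, ← hH]
  refine le_trans (add_le_add (add_le_add ((pmean_exists_le hp _ _).trans (sum_le_card_nsmul _ _
    (H ^ (m + 1) * (((n : ℝ) + 1) ^ 2)⁻¹) fun ℓ hℓ => ?_)) part2) part3) ?_
  · refine ((pmean_exists_le hp _ _).trans (sum_le_card_nsmul _ _ _ (part1 ℓ hℓ))).trans ?_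
    rw [nsmul_eq_mul]
    refine mul_le_mul_of_nonneg_right ?_ (by positivity)
    rw [Fintype.card_piFinset_const, Nat.card_Icc, Nat.add_sub_cancel, hH]
    exact_mod_cast Nat.pow_le_pow_right hh1 (mem_Ico.1 hℓ).2.le
  · rw [nsmul_eq_mul, Nat.card_Ico, Nat.add_sub_cancel]
    have h1 : (m : ℝ) * (H ^ (m + 1) * (((n : ℝ) + 1) ^ 2)⁻¹) ≤
        H * (H ^ (m + 1) * (((n : ℝ) + 1) ^ 2)⁻¹) :=
      mul_le_mul_of_nonneg_right (by rw [hH]; exact Nat.cast_le.2 (Nat.le_succ m)) (by positivity)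
    linarith

theorem sum_Ico_inv_sq_le {n₀ : ℕ} (hn₀ : 1 ≤ n₀) (M : ℕ) :
    ∑ n ∈ Ico n₀ M, (((n : ℝ) + 1) ^ 2)⁻¹ ≤ 1 / (n₀ : ℝ) := by
  rcases le_or_gt M n₀ with hM | hM
  · rw [Ico_eq_empty (not_lt.2 hM), sum_empty]; positivity
  refine (sum_le_sum (g := fun n : ℕ => 1 / (n : ℝ) - 1 / ((n + 1 : ℕ) : ℝ)) fun n hn => ?_).trans ?_
  · have hn0 : (0 : ℝ) < n := Nat.cast_pos.2 (lt_of_lt_of_le hn₀ (mem_Ico.1 hn).1)
    push_cast
    rw [div_sub_div _ _ hn0.ne' (by positivity), inv_eq_one_div,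
      div_le_div_iff₀ (by positivity) (by positivity)]
    nlinarith
  · have h1 := sum_Ico_sub (fun n : ℕ => 1 / (n : ℝ)) hM.le
    rw [sum_sub_distrib] at h1 ⊢
    linarith [show (0 : ℝ) ≤ 1 / M by positivity]

/-- **A set satisfying every condition.** -/
theorem exists_good (hh : 2 ≤ h) :
    ∃ (A : Set ℕ) (D : ℝ) (n₀ : ℕ), 0 < D ∧ ∀ n, n₀ ≤ n → Good h D n A := by
  obtain ⟨C, D, hC, hD, hev⟩ := exists_pmean_not_good_le hh
  obtain ⟨n₁, hn₁⟩ := eventually_atTop.1 hev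
  obtain ⟨B, hB⟩ : ∃ B : ℝ, B = (h : ℝ) * (h : ℝ) ^ h + 2 := ⟨_, rfl⟩
  obtain ⟨n₀, hn₀⟩ := exists_nat_gt (max (n₁ : ℝ) B)
  have hB0 : 0 ≤ B := hB ▸ by positivity
  have hn₁₀ : n₁ ≤ n₀ := Nat.cast_le.1 (lt_of_le_of_lt (le_max_left _ _) hn₀).le
  have hBn : B < n₀ := lt_of_le_of_lt (le_max_right _ _) hn₀
  have hn₀1 : 1 ≤ n₀ := Nat.one_le_iff_ne_zero.2 fun h0 => by subst h0; simp at hBn; linarith
  have hfin : ∀ N : ℕ, ∃ S : Finset ℕ, ∀ n ∈ Ico n₀ (N + 1), Good h D n (S : Set ℕ) := by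
    intro N
    have hp := isWeight_density (h := h) hC
    have hlt : pmean (density h C) (range (N + 1))
        (fun S => ind (∃ n ∈ Ico n₀ (N + 1), ¬Good h D n (S : Set ℕ))) < 1 := by
      refine ((pmean_exists_le hp _ _).trans (sum_le_sum fun n hn =>
        hn₁ n (hn₁₀.trans (mem_Ico.1 hn).1) N (Nat.le_of_lt_succ (mem_Ico.1 hn).2))).trans_lt ?_
      rw [← mul_sum, ← hB]
      refine (mul_le_mul_of_nonneg_left (sum_Ico_inv_sq_le hn₀1 _) hB0).trans_lt ?_
      rw [mul_one_div, div_lt_one (Nat.cast_pos.2 hn₀1)]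
      exact hBn
    obtain ⟨S, -, hS⟩ := exists_of_pmean_lt_one hp hlt
    refine ⟨S, fun n hn => ?_⟩
    by_contra hcon
    rw [ind, if_pos ⟨n, hn, hcon⟩] at hS
    exact lt_irrefl _ hS
  choose S hS using hfin
  refine ⟨{a | ∀ᶠ N in (hyperfilter ℕ : Filter ℕ), a ∈ S N}, D, n₀, hD, fun n hn => ?_⟩
  have hag : ∀ᶠ N in (hyperfilter ℕ : Filter ℕ), ∀ a ∈ range (n + 1),
      (a ∈ S N ↔ ∀ᶠ M in (hyperfilter ℕ : Filter ℕ), a ∈ S M) := by
    refine (eventually_all_finset _).2 fun a _ => ?_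
    rcases (hyperfilter ℕ).em (fun M => a ∈ S M) with hyes | hno
    · exact hyes.mono fun N hN => iff_of_true hN hyes
    · exact hno.mono fun N hN => iff_of_false hN (Ultrafilter.eventually_not.1 hno)
  have hbig : ∀ᶠ N in (hyperfilter ℕ : Filter ℕ), n ≤ N :=
    Nat.hyperfilter_le_atTop (eventually_ge_atTop n)
  obtain ⟨N, hN1, hN2⟩ := (hag.and hbig).exists
  exact good_congr (fun a ha => (hN1 a (mem_range.2 (Nat.lt_succ_of_le ha))).trans Iff.rfl)
    (hS N n (mem_Ico.2 ⟨hn, Nat.lt_succ_of_le hN2⟩))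

open Classical in
/-- The representations of `n` by `h` distinct elements of `A`. -/
def repDistinct (A : Set ℕ) (h n : ℕ) : ℕ :=
  ((Fintype.piFinset fun _ : Fin h => range (n + 1)).filter fun a =>
    (∀ i, a i ∈ A) ∧ Function.Injective a ∧ ∑ i, a i = n).card

theorem repDistinct_le (A : Set ℕ) (h n : ℕ) : repDistinct A h n ≤ repCount A h n := by
  classical
  exact card_le_card fun a ha => by
    obtain ⟨h1, h2, -, h3⟩ := mem_filter.1 ha
    exact mem_filter.2 ⟨h1, h2, h3⟩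

/-- **The Erdős–Tetali theorem.** -/
theorem exists_thin (hh : 2 ≤ h) : ∃ (A : Set ℕ) (B : ℝ) (n₀ : ℕ), 0 < B ∧
    (∀ n, (repCount A h n : ℝ) ≤ B * lg n) ∧ ∀ n, n₀ ≤ n → lg n < repDistinct A h n := by
  classical
  obtain ⟨A, D, n₀, hD, hA⟩ := exists_good hh
  choose K hK using fun ℓ (hℓ : ℓ < h) => exists_card_solsIn_le h n₀ (4 * h) ℓ hℓ
  obtain ⟨K', hK'⟩ : ∃ K' : ℕ, K' = (univ : Finset (Fin h)).sup fun ℓ => K ℓ.val ℓ.isLt := ⟨_, rfl⟩
  have hshort : ∀ ℓ, ℓ < h → ∀ c : Fin ℓ → ℕ, CoeffBox h c → ∀ n,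
      (solsIn A c n).card ≤ K' := fun ℓ hℓ c hc n =>
    (hK ℓ hℓ A (fun m hm => (hA m hm).1) c hc n).trans
      (hK' ▸ le_sup (f := fun ℓ : Fin h => K ℓ.val ℓ.isLt) (mem_univ ⟨ℓ, hℓ⟩))
  obtain ⟨m, rfl⟩ : ∃ m, h = m + 1 := ⟨h - 1, by omega⟩
  obtain ⟨b₁, hb₁⟩ : ∃ b₁ : ℝ, b₁ = ((m + 1) ^ (m + 1) * ((m + 1) * ((m + 1) * K')) : ℕ) :=
    ⟨_, rfl⟩
  obtain ⟨b₂, hb₂⟩ : ∃ b₂ : ℝ, b₂ = ((m + 1 + 1) * (m + 1) ^ (m + 1) * K' : ℕ) := ⟨_, rfl⟩
  obtain ⟨b₃, hb₃⟩ : ∃ b₃ : ℝ, b₃ = ((n₀ + 1) ^ (m + 1) : ℕ) := ⟨_, rfl⟩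
  have hb₁0 : 0 ≤ b₁ := hb₁ ▸ Nat.cast_nonneg' _
  have hb₂0 : 0 ≤ b₂ := hb₂ ▸ Nat.cast_nonneg' _
  have hb₃0 : 1 ≤ b₃ := hb₃ ▸ Nat.one_le_cast.2 (Nat.one_le_pow _ _ (Nat.succ_pos _))
  refine ⟨A, b₁ * (D + 1) + b₂ + b₃, n₀, by positivity, fun n => ?_, fun n hn => ?_⟩
  · have hL := one_le_lg n
    rcases Nat.lt_or_ge n n₀ with hn | hn
    · have h1 : (repCount A (m + 1) n : ℝ) ≤ b₃ := by
        rw [hb₃]
        refine Nat.cast_le.2 ((card_filter_le _ _).trans ?_)
        rw [Fintype.card_piFinset_const, card_range]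
        exact Nat.pow_le_pow_left (by omega) _
      calc (repCount A (m + 1) n : ℝ) ≤ b₃ * 1 := by rwa [mul_one]
        _ ≤ _ := mul_le_mul (by nlinarith) hL zero_le_one (by positivity)
    · have h1 := card_solsIn_le_of_noDisjoint (K := K') (c := fun _ : Fin (m + 1) => 1)
        (fun _ => le_rfl) (hA n hn).2.1
        fun i r => hshort m (Nat.lt_succ_self m) _ (fun _ => ⟨le_rfl, by omega⟩) r
      have h2 := repCount_le A (m + 1) n K' fun ℓ hℓ c hc => hshort ℓ hℓ c hc n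
      have h3 : (repCount A (m + 1) n : ℝ) ≤ b₁ * (⌈D * lg n⌉₊ : ℝ) + b₂ := by
        rw [hb₁, hb₂, ← Nat.cast_mul, ← Nat.cast_add, Nat.cast_le]
        refine h2.trans ?_
        calc _ ≤ (m + 1) ^ (m + 1) * (⌈D * lg n⌉₊ * (m + 1) * ((m + 1) * K')) +
              (m + 1 + 1) * (m + 1) ^ (m + 1) * K' :=
              Nat.add_le_add_right (Nat.mul_le_mul_left _ h1) _
          _ = _ := by ring
      have h4 := Nat.ceil_lt_add_one (mul_nonneg hD.le (lg_pos n).le)
      nlinarith [mul_le_mul_of_nonneg_left h4.le hb₁0]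
  · obtain ⟨-, -, T, hT, hTA, hcard⟩ := hA n hn
    refine hcard.trans_le (Nat.cast_le.2 (card_le_card fun a ha => ?_))
    obtain ⟨h1, h2, h3, -⟩ := spread_spec (hT ha)
    exact mem_filter.2 ⟨Fintype.mem_piFinset.2 fun i => mem_range.2 (Nat.lt_succ_of_le (h1 i)),
      hTA a ha, h3.injective, h2⟩

theorem lg_le_mul_log {k : ℕ} (hk : 1 ≤ k) : ∀ᶠ n : ℕ in atTop, lg (k * n) ≤ 2 * Real.log n := by
  filter_upwards [(Real.tendsto_log_atTop.comp tendsto_natCast_atTop_atTop).eventually_ge_atTop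
    (1 + Real.log (2 * k)), eventually_ge_atTop 1] with n hn hn1
  have hk0 : (1 : ℝ) ≤ k := Nat.one_le_cast.2 hk
  have hn0 : (1 : ℝ) ≤ n := Nat.one_le_cast.2 hn1
  have h1 := Real.log_le_log (by positivity : (0 : ℝ) < (k * n : ℝ) + 1)
    (show (k * n : ℝ) + 1 ≤ 2 * k * n by nlinarith)
  rw [Real.log_mul (by positivity) (by positivity)] at h1
  simp only [Function.comp_apply] at hn
  rw [lg]
  push_cast
  linarith

theorem log_le_lg (n : ℕ) : Real.log n ≤ lg n := by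
  rcases Nat.eq_zero_or_pos n with rfl | hn
  · simpa using (lg_pos 0).le
  have h1 := Real.log_le_log (Nat.cast_pos.2 hn : (0 : ℝ) < n) (by linarith : (n : ℝ) ≤ n + 1)
  rw [lg]; linarith

open Classical in
/-- The number of elements of `A` up to `N`. -/
def countUpTo (A : Set ℕ) (N : ℕ) : ℕ := ((range (N + 1)).filter (· ∈ A)).card

/-- **Counting by representations.** -/
theorem countUpTo_pow_bounds (A : Set ℕ) (h N : ℕ) :
    ∑ n ∈ range (N + 1), repCount A h n ≤ countUpTo A N ^ h ∧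
      countUpTo A N ^ h ≤ ∑ n ∈ range (h * N + 1), repCount A h n := by
  classical
  obtain ⟨P, hP⟩ : ∃ P : Finset (Fin h → ℕ),
      P = Fintype.piFinset fun _ : Fin h => (range (N + 1)).filter (· ∈ A) := ⟨_, rfl⟩
  have hcard : countUpTo A N ^ h = P.card := by
    rw [hP, Fintype.card_piFinset_const]; rfl
  have hmem : ∀ a, a ∈ P ↔ ∀ i, a i ≤ N ∧ a i ∈ A := fun a => by
    simp [hP, Fintype.mem_piFinset]
  have hmap : ∀ a ∈ P, ∑ i, a i ∈ range (h * N + 1) := fun a ha =>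
    mem_range.2 (Nat.lt_succ_of_le ((sum_le_card_nsmul univ _ N fun i _ => ((hmem a).1 ha i).1).trans
      (by simp)))
  rw [hcard]
  constructor
  · rw [← sum_congr rfl fun n hn => show (P.filter fun a => ∑ i, a i = n).card = repCount A h n from ?_]
    · exact (card_biUnion (fun x _ y _ hxy => disjoint_filter.2 fun a _ h1 h2 => hxy (h1.symm.trans h2))
        ).symm.trans_le (card_le_card (biUnion_subset.2 fun n _ => filter_subset _ _))
    refine congrArg card (ext fun a => ?_)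
    simp only [mem_filter, hmem, Fintype.mem_piFinset, mem_range]
    have hnN := mem_range.1 hn
    constructor
    · rintro ⟨h1, h2⟩
      exact ⟨fun i => Nat.lt_succ_of_le (h2 ▸ single_le_sum (fun j _ => Nat.zero_le _) (mem_univ i)),
        fun i => (h1 i).2, h2⟩
    · rintro ⟨h1, h2, h3⟩
      exact ⟨fun i => ⟨by have := h1 i; omega, h2 i⟩, h3⟩
  · rw [card_eq_sum_card_fiberwise (f := fun a : Fin h → ℕ => ∑ i, a i) (fun a ha => hmap a ha)]
    refine sum_le_sum fun n _ => card_le_card fun a ha => ?_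
    obtain ⟨h1, h2⟩ := mem_filter.1 ha
    exact mem_filter.2 ⟨Fintype.mem_piFinset.2 fun i => mem_range.2 (Nat.lt_succ_of_le
      (h2 ▸ single_le_sum (fun j _ => Nat.zero_le _) (mem_univ i))),
      fun i => ((hmem a).1 h1 i).2, h2⟩

/-- **Erdős–Tetali, with the order of the counting function.** -/
theorem erdos_tetali (hh : 2 ≤ h) : ∃ (A : Set ℕ) (c₁ c₂ d₁ d₂ : ℝ),
    0 < c₁ ∧ 0 < c₂ ∧ 0 < d₁ ∧ 0 < d₂ ∧
    (∀ᶠ n : ℕ in atTop, c₁ * Real.log n ≤ repDistinct A h n ∧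
      (repCount A h n : ℝ) ≤ c₂ * Real.log n) ∧
    ∀ᶠ N : ℕ in atTop, d₁ * ((N : ℝ) * Real.log N) ^ (1 / (h : ℝ)) ≤ countUpTo A N ∧
      (countUpTo A N : ℝ) ≤ d₂ * ((N : ℝ) * Real.log N) ^ (1 / (h : ℝ)) := by
  obtain ⟨A, B, n₀, hB, hup, hlow⟩ := exists_thin hh
  obtain ⟨t, ht⟩ : ∃ t : ℝ, t = 1 / (h : ℝ) := ⟨_, rfl⟩
  have hh0 : (0 : ℝ) < h := Nat.cast_pos.2 (by omega)
  have ht0 : 0 < t := ht ▸ by positivity
  refine ⟨A, 1, 2 * B, (1 / 4 : ℝ) ^ t, (4 * h * B : ℝ) ^ t, one_pos, by positivity,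
    by positivity, by positivity, ?_, ?_⟩
  · filter_upwards [eventually_ge_atTop n₀, lg_le_mul_log le_rfl] with n hn hlg
    rw [one_mul] at hlg ⊢
    exact ⟨(log_le_lg n).trans (hlow n hn).le,
      (hup n).trans ((mul_le_mul_of_nonneg_left hlg hB.le).trans (le_of_eq (by ring)))⟩
  · filter_upwards [lg_le_mul_log (k := h) (by omega), eventually_ge_atTop (2 * n₀ + 6)]
      with N hlg hN
    have hN1 : (1 : ℝ) ≤ N := Nat.one_le_cast.2 (by omega)
    have hlog : 0 ≤ Real.log N := Real.log_nonneg hN1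
    obtain ⟨hlo, hhi⟩ := countUpTo_pow_bounds A h N
    have hroot : ((countUpTo A N : ℝ) ^ h) ^ t = countUpTo A N := by
      rw [ht, one_div, Real.pow_rpow_inv_natCast (Nat.cast_nonneg' _) (by omega)]
    constructor
    · rw [← ht, ← Real.mul_rpow (by norm_num) (by positivity), ← hroot]
      refine Real.rpow_le_rpow (by positivity) ?_ ht0.le
      have hlogN : Real.log N ≤ 2 * Real.log (N / 2 : ℕ) := by
        rw [← Real.log_rpow (Nat.cast_pos.2 (by omega : 0 < N / 2)),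
          show (2 : ℝ) = ((2 : ℕ) : ℝ) by norm_num, Real.rpow_natCast]
        refine Real.log_le_log (by positivity) ?_
        have : N ≤ (N / 2) ^ 2 := by
          have : 2 * (N / 2) + 1 ≥ N := by omega
          have : 3 ≤ N / 2 := by omega
          nlinarith
        exact_mod_cast this
      calc 1 / 4 * ((N : ℝ) * Real.log N)
          ≤ ((Ico (N / 2) (N + 1)).card : ℝ) * (Real.log N / 2) := by
            rw [Nat.card_Ico]
            have h1 : (N : ℝ) ≤ 2 * ((N + 1 - N / 2 : ℕ) : ℝ) := by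
              exact_mod_cast (by omega : N ≤ 2 * (N + 1 - N / 2))
            nlinarith
        _ ≤ ∑ n ∈ Ico (N / 2) (N + 1), (repCount A h n : ℝ) := by
            rw [← nsmul_eq_mul]
            refine card_nsmul_le_sum _ _ _ fun n hn => ?_
            have hn' := (mem_Ico.1 hn).1
            have h1 := Real.log_le_log (Nat.cast_pos.2 (by omega : 0 < N / 2))
              (Nat.cast_le.2 hn' : ((N / 2 : ℕ) : ℝ) ≤ n)
            have h2 := (log_le_lg n).trans ((hlow n (by omega)).le.trans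
              (Nat.cast_le.2 (repDistinct_le A h n)))
            linarith
        _ ≤ ((∑ n ∈ range (N + 1), repCount A h n : ℕ) : ℝ) := by
            rw [Nat.cast_sum]
            refine sum_le_sum_of_subset_of_nonneg (fun n hn => ?_) fun n _ _ => Nat.cast_nonneg' _
            exact mem_range.2 (mem_Ico.1 hn).2
        _ ≤ _ := by exact_mod_cast hlo
    · rw [← ht, ← Real.mul_rpow (by positivity) (by positivity), ← hroot]
      refine Real.rpow_le_rpow (by positivity) ?_ ht0.le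
      calc (countUpTo A N : ℝ) ^ h ≤ ((∑ n ∈ range (h * N + 1), repCount A h n : ℕ) : ℝ) := by
            exact_mod_cast hhi
        _ ≤ ∑ n ∈ range (h * N + 1), B * lg (h * N) := by
            rw [Nat.cast_sum]
            exact sum_le_sum fun n hn => (hup n).trans
              (mul_le_mul_of_nonneg_left (lg_mono (Nat.le_of_lt_succ (mem_range.1 hn))) hB.le)
        _ ≤ ((2 * h * N : ℕ) : ℝ) * (B * (2 * Real.log N)) := by
            rw [sum_const, card_range, nsmul_eq_mul]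
            exact mul_le_mul (Nat.cast_le.2 (by nlinarith)) (mul_le_mul_of_nonneg_left hlg hB.le)
              (mul_nonneg hB.le (lg_pos _).le) (Nat.cast_nonneg' _)
        _ = _ := by push_cast; ring

end FA.ErdosTetali
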