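import Mathlib.Algebra.BigOperators.Ring.Finset
import Mathlib.Analysis.Complex.Exponential
import Mathlib.Algebra.BigOperators.Group.Finset.Powerset
import Mathlib.Data.Finset.Powerset
import Mathlib.Tactic.Linarith

/-!
# Random subsets of a finite set

Subsets of `U` in which `i` lies with probability `p i`, independently: Harris's inequality,
Janson's bound for the lower tail, and the bound `μ ^ k / k!` for `k` disjoint configurations.
-/

set_option autoImplicit false

noncomputable section

namespace FA.ErdosTetali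

open Finset

variable {ι β : Type*} [DecidableEq ι]

/-- The mean of `f` over the random subsets of `U`. -/
def pmean (p : ι → ℝ) (U : Finset ι) (f : Finset ι → ℝ) : ℝ :=
  ∑ S ∈ U.powerset, (∏ i ∈ S, p i) * (∏ i ∈ U \ S, (1 - p i)) * f S

variable {p : ι → ℝ} {U : Finset ι} {f g : Finset ι → ℝ}

theorem pmean_empty : pmean p ∅ f = f ∅ := by simp [pmean]

theorem pmean_insert {a : ι} (ha : a ∉ U) : pmean p (insert a U) f =
    p a * pmean p U (fun S => f (insert a S)) + (1 - p a) * pmean p U f := by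
  simp only [pmean]
  rw [sum_powerset_insert ha, mul_sum, mul_sum, add_comm]
  refine congrArg₂ (· + ·) (sum_congr rfl fun S hS => ?_) (sum_congr rfl fun S hS => ?_)
  · have haS : a ∉ S := fun h => ha (mem_powerset.1 hS h)
    rw [prod_insert haS, show insert a U \ insert a S = U \ S by
      ext x
      simp only [mem_sdiff, mem_insert]
      constructor
      · rintro ⟨rfl | hx, h⟩
        · exact absurd (Or.inl rfl) h
        · exact ⟨hx, fun h' => h (Or.inr h')⟩
      · rintro ⟨hx, h⟩
        exact ⟨Or.inr hx, fun h' => h'.elim (fun e => ha (e ▸ hx)) h⟩]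
    ring
  · have haS : a ∉ S := fun h => ha (mem_powerset.1 hS h)
    rw [insert_sdiff_of_notMem _ haS, prod_insert fun h => ha (mem_sdiff.1 h).1]
    ring

theorem pmean_congr (h : ∀ S, S ⊆ U → f S = g S) : pmean p U f = pmean p U g :=
  sum_congr rfl fun S hS => by rw [h S (mem_powerset.1 hS)]

theorem pmean_const (c : ℝ) : pmean p U (fun _ => c) = c := by
  induction U using Finset.induction with
  | empty => rw [pmean_empty]
  | insert a U ha ih => rw [pmean_insert ha, ih]; ring

theorem pmean_add : pmean p U (fun S => f S + g S) = pmean p U f + pmean p U g := by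
  simp [pmean, mul_add, sum_add_distrib]

theorem pmean_const_mul (c : ℝ) : pmean p U (fun S => c * f S) = c * pmean p U f := by
  simp only [pmean, mul_sum]
  exact sum_congr rfl fun S _ => by ring

theorem pmean_sum {γ : Type*} (T : Finset γ) (F : γ → Finset ι → ℝ) :
    pmean p U (fun S => ∑ c ∈ T, F c S) = ∑ c ∈ T, pmean p U (F c) := by
  simp only [pmean, mul_sum]
  rw [sum_comm]

/-- The weights are probabilities. -/
def IsWeight (p : ι → ℝ) : Prop := ∀ i, 0 ≤ p i ∧ p i ≤ 1

theorem pmean_mono (hp : IsWeight p) (h : ∀ S, S ⊆ U → f S ≤ g S) : pmean p U f ≤ pmean p U g :=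
  sum_le_sum fun S hS => mul_le_mul_of_nonneg_left (h S (mem_powerset.1 hS))
    (mul_nonneg (prod_nonneg fun i _ => (hp i).1) (prod_nonneg fun i _ => sub_nonneg.2 (hp i).2))

theorem pmean_nonneg (hp : IsWeight p) (h : ∀ S, S ⊆ U → 0 ≤ f S) : 0 ≤ pmean p U f :=
  (pmean_const (p := p) (U := U) 0).symm.trans_le (pmean_mono hp h)

theorem exists_of_pmean_lt_one (hp : IsWeight p) (h : pmean p U f < 1) : ∃ S, S ⊆ U ∧ f S < 1 := by
  by_contra hcon
  push Not at hcon
  exact absurd ((pmean_const (p := p) (U := U) 1).symm.trans_le (pmean_mono hp hcon)) (not_le.2 h)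

/-- **Harris's inequality.** -/
theorem pmean_mul_ge (hp : IsWeight p) :
    ∀ (U : Finset ι) (f g : Finset ι → ℝ), (∀ S T, S ⊆ T → f T ≤ f S) →
      (∀ S T, S ⊆ T → g T ≤ g S) → pmean p U f * pmean p U g ≤ pmean p U (fun S => f S * g S) := by
  intro U
  induction U using Finset.induction with
  | empty => intro f g _ _; simp [pmean_empty]
  | insert a U ha ih =>
    intro f g hf hg
    simp only [pmean_insert ha]
    have hf' : ∀ S T, S ⊆ T → f (insert a T) ≤ f (insert a S) :=
      fun S T h => hf _ _ (insert_subset_insert a h)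
    have hg' : ∀ S T, S ⊆ T → g (insert a T) ≤ g (insert a S) :=
      fun S T h => hg _ _ (insert_subset_insert a h)
    have h1 := ih _ _ hf' hg'
    have h0 := ih f g hf hg
    have df : pmean p U (fun S => f (insert a S)) ≤ pmean p U f :=
      pmean_mono hp fun S _ => hf _ _ (subset_insert a S)
    have dg : pmean p U (fun S => g (insert a S)) ≤ pmean p U g :=
      pmean_mono hp fun S _ => hg _ _ (subset_insert a S)
    have ha1 := hp a
    nlinarith [mul_le_mul_of_nonneg_left h1 ha1.1,
      mul_le_mul_of_nonneg_left h0 (sub_nonneg.2 ha1.2),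
      mul_nonneg (mul_nonneg ha1.1 (sub_nonneg.2 ha1.2))
        (mul_nonneg (sub_nonneg.2 df) (sub_nonneg.2 dg))]

theorem pmean_subset_mul : ∀ {B U : Finset ι}, B ⊆ U → ∀ f : Finset ι → ℝ,
    pmean p U (fun S => if B ⊆ S then f S else 0) =
      (∏ i ∈ B, p i) * pmean p (U \ B) (fun S => f (S ∪ B)) := by
  intro B
  induction B using Finset.induction with
  | empty => intro U _ f; simp
  | insert b B hb ih =>
    intro U hU f
    have hbU : b ∈ U := hU (mem_insert_self b B)
    have hins : insert b (U.erase b) = U := insert_erase hbU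
    have hBU : B ⊆ U.erase b := fun x hx =>
      mem_erase.2 ⟨fun e => hb (e ▸ hx), hU (mem_insert_of_mem hx)⟩
    have hset : U \ insert b B = U.erase b \ B := by
      ext x
      simp only [mem_sdiff, mem_insert, mem_erase]
      tauto
    conv_lhs => rw [← hins]
    rw [pmean_insert (notMem_erase b U), prod_insert hb, hset]
    have h1 : pmean p (U.erase b) (fun S => if insert b B ⊆ S then f S else 0) = 0 := by
      refine (pmean_congr (g := fun _ => 0) fun S hS => if_neg ?_).trans (pmean_const 0)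
      intro h
      exact notMem_erase b U (hS (h (mem_insert_self b B)))
    have h2 : pmean p (U.erase b) (fun S => if insert b B ⊆ insert b S then f (insert b S) else 0) =
        pmean p (U.erase b) (fun S => if B ⊆ S then f (insert b S) else 0) :=
      pmean_congr fun S _ => by
        have hiff : insert b B ⊆ insert b S ↔ B ⊆ S := by
          constructor
          · intro h x hx
            exact (mem_insert.1 (h (mem_insert_of_mem hx))).resolve_left fun e => by
              subst e; exact hb hx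
          · exact fun h => insert_subset_insert b h
        exact if_congr hiff rfl rfl
    rw [h1, h2, ih hBU, mul_zero, add_zero, mul_assoc]
    congr 2
    exact pmean_congr fun S _ => by rw [union_insert]

theorem pmean_subset_indicator {B U : Finset ι} (hB : B ⊆ U) :
    pmean p U (fun S => if B ⊆ S then 1 else 0) = ∏ i ∈ B, p i := by
  rw [pmean_subset_mul hB, pmean_const, mul_one]

theorem pmean_depend : ∀ {B U : Finset ι}, B ⊆ U → ∀ f : Finset ι → ℝ,
    (∀ S, f (S \ B) = f S) → pmean p U f = pmean p (U \ B) f := by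
  intro B
  induction B using Finset.induction with
  | empty => intro U _ f _; simp
  | insert b B hb ih =>
    intro U hU f hf
    have hbU : b ∈ U := hU (mem_insert_self b B)
    have hset : U \ insert b B = U.erase b \ B := by
      ext x
      simp only [mem_sdiff, mem_insert, mem_erase]
      tauto
    have hf' : ∀ S, f (S \ B) = f S := fun S => by
      rw [← hf (S \ B), ← hf S]
      congr 1
      ext x
      simp only [mem_sdiff, mem_insert]
      tauto
    have hfb : ∀ S, f (insert b S) = f S := fun S => by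
      rw [← hf (insert b S), ← hf S]
      congr 1
      ext x
      simp only [mem_sdiff, mem_insert]
      tauto
    conv_lhs => rw [← insert_erase hbU]
    rw [pmean_insert (notMem_erase b U), hset, pmean_congr (g := f) fun S _ => hfb S,
      ← ih (fun x hx => mem_erase.2 ⟨ne_of_mem_of_not_mem hx hb, hU (mem_insert_of_mem hx)⟩) f hf']
    ring

theorem one_sub_mul_sum_le_prod {γ : Type*} (T : Finset γ) (x : γ → ℝ) {s : ℝ}
    (hs : 0 ≤ s) (hx : ∀ c ∈ T, 0 ≤ x c ∧ s * x c ≤ 1) :
    1 - s * ∑ c ∈ T, x c ≤ ∏ c ∈ T, (1 - s * x c) := by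
  classical
  induction T using Finset.induction with
  | empty => simp
  | insert c T hc ih =>
    rw [sum_insert hc, prod_insert hc]
    obtain ⟨h0, h1⟩ := hx c (mem_insert_self c T)
    have hpos : 0 ≤ ∑ d ∈ T, x d :=
      sum_nonneg fun d hd => (hx d (mem_insert_of_mem hd)).1
    have hsc : 0 ≤ s * x c := mul_nonneg hs h0
    nlinarith [mul_le_mul_of_nonneg_left (ih fun d hd => hx d (mem_insert_of_mem hd))
      (sub_nonneg.2 h1), mul_nonneg hsc (mul_nonneg hs hpos)]

/-- The product detecting the configurations inside a set. -/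
def avoidWeight (φ : β → Finset ι) (T : Finset β) (s : ℝ) (S : Finset ι) : ℝ :=
  ∏ b ∈ T, (1 - s * if φ b ⊆ S then 1 else 0)

variable {φ : β → Finset ι} {s : ℝ}

theorem factor_bounds (hs0 : 0 ≤ s) (hs1 : s ≤ 1) (b : β) (S : Finset ι) :
    0 ≤ (1 - s * if φ b ⊆ S then 1 else 0) ∧ (1 - s * if φ b ⊆ S then 1 else 0) ≤ (1 : ℝ) := by
  split_ifs <;> constructor <;> linarith

theorem avoidWeight_antitone (hs0 : 0 ≤ s) (hs1 : s ≤ 1) (T : Finset β) {S S' : Finset ι}
    (h : S ⊆ S') : avoidWeight φ T s S' ≤ avoidWeight φ T s S := by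
  refine prod_le_prod (fun b _ => (factor_bounds hs0 hs1 b S').1) fun b _ => ?_
  split_ifs with h1 h2 h2
  · exact le_rfl
  · linarith
  · exact absurd (h2.trans h) h1
  · exact le_rfl

variable [DecidableEq β]

/-- **Janson's inequality for the lower tail.** -/
theorem pmean_avoidWeight_le (hp : IsWeight p) (hs0 : 0 ≤ s) (hs1 : s ≤ 1) :
    ∀ T : Finset β, (∀ b ∈ T, φ b ⊆ U) →
      pmean p U (avoidWeight φ T s) ≤ Real.exp (-s * (∑ b ∈ T, ∏ i ∈ φ b, p i) + s ^ 2 *
        ∑ b ∈ T, ∑ c ∈ T.filter (fun c => c ≠ b ∧ ¬ Disjoint (φ c) (φ b)),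
          (∏ i ∈ φ b, p i) * ∏ i ∈ φ c \ φ b, p i) := by
  classical
  intro T
  induction T using Finset.induction with
  | empty =>
    intro _
    have : avoidWeight φ (∅ : Finset β) s = fun _ => (1 : ℝ) := by funext S; simp [avoidWeight]
    simp [this, pmean_const]
  | insert b T hb ih =>
    intro hU
    have hbU := hU b (mem_insert_self b T)
    obtain ⟨π, hπ⟩ : ∃ π : ℝ, π = ∏ i ∈ φ b, p i := ⟨_, rfl⟩
    have hπ0 : 0 ≤ π := hπ ▸ prod_nonneg fun i _ => (hp i).1
    obtain ⟨D, hD⟩ : ∃ D, D = T.filter fun c => Disjoint (φ c) (φ b) := ⟨_, rfl⟩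
    obtain ⟨E, hE⟩ : ∃ E, E = T.filter fun c => ¬ Disjoint (φ c) (φ b) := ⟨_, rfl⟩
    obtain ⟨η, hη⟩ : ∃ η : ℝ, η = ∑ c ∈ E, ∏ i ∈ φ c \ φ b, p i := ⟨_, rfl⟩
    obtain ⟨G, hG⟩ : ∃ G : ℝ, G = pmean p U (avoidWeight φ T s) := ⟨_, rfl⟩
    have hG0 : 0 ≤ G := hG ▸ pmean_nonneg hp fun S _ =>
      prod_nonneg fun c _ => (factor_bounds hs0 hs1 c S).1
    have hstep : pmean p U (avoidWeight φ (insert b T) s) =
        G - s * pmean p U (fun S => if φ b ⊆ S then avoidWeight φ T s S else 0) := by
      rw [hG, ← pmean_const_mul, eq_sub_iff_add_eq, ← pmean_add]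
      refine pmean_congr fun S _ => ?_
      simp only [avoidWeight, prod_insert hb]
      split_ifs <;> ring
    have hlow : π * (G * (1 - s * η)) ≤
        pmean p U (fun S => if φ b ⊆ S then avoidWeight φ T s S else 0) := by
      rw [pmean_subset_mul hbU, ← hπ]
      refine mul_le_mul_of_nonneg_left ?_ hπ0
      have hsplit : pmean p (U \ φ b) (fun S => avoidWeight φ T s (S ∪ φ b)) =
          pmean p (U \ φ b)
            (fun S => avoidWeight φ D s S * avoidWeight φ E s (S ∪ φ b)) := by
        refine pmean_congr fun S _ => ?_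
        simp only [avoidWeight]
        rw [← prod_filter_mul_prod_filter_not T (fun c => Disjoint (φ c) (φ b)), ← hD, ← hE]
        refine congrArg (· * _) (prod_congr rfl fun c hc => ?_)
        rw [hD, mem_filter] at hc
        have hdis : Disjoint (φ c) (φ b) := hc.2
        refine congrArg (fun x : ℝ => 1 - s * x) (if_congr ⟨fun h x hx => ?_,
          fun h => h.trans subset_union_left⟩ rfl rfl)
        exact (mem_union.1 (h hx)).resolve_right (disjoint_left.1 hdis hx)
      rw [hsplit]
      refine le_trans ?_ (pmean_mul_ge hp _ _ _ (fun _ _ h => avoidWeight_antitone hs0 hs1 D h)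
        fun S S' h => avoidWeight_antitone hs0 hs1 E (union_subset_union_left h))
      have h1 : G ≤ pmean p (U \ φ b) (avoidWeight φ D s) := by
        rw [hG, ← pmean_depend hbU (avoidWeight φ D s) fun S => ?_]
        · refine pmean_mono hp fun S _ => ?_
          refine prod_le_prod_of_subset_of_le_one (hD ▸ filter_subset _ _)
            (fun c _ => (factor_bounds hs0 hs1 c S).1) fun c _ _ => (factor_bounds hs0 hs1 c S).2
        · refine prod_congr rfl fun c hc => ?_
          rw [hD, mem_filter] at hc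
          have hdis : Disjoint (φ c) (φ b) := hc.2
          refine congrArg (fun x : ℝ => 1 - s * x)
            (if_congr ⟨fun h => h.trans sdiff_subset, fun h x hx => ?_⟩ rfl rfl)
          exact mem_sdiff.2 ⟨h hx, disjoint_left.1 hdis hx⟩
      have h2 : 1 - s * η ≤ pmean p (U \ φ b) (fun S => avoidWeight φ E s (S ∪ φ b)) := by
        refine le_trans (le_of_eq ?_) (pmean_mono hp fun S _ => one_sub_mul_sum_le_prod E
          (fun c => if φ c ⊆ S ∪ φ b then (1 : ℝ) else 0) hs0 fun c _ => by
            split_ifs <;> constructor <;> linarith)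
        simp only [sub_eq_add_neg, ← neg_mul]
        rw [pmean_add, pmean_const, pmean_const_mul, pmean_sum, hη]
        congr 2
        refine sum_congr rfl fun c hc => ?_
        have hcT : c ∈ T := (mem_filter.1 (hE ▸ hc)).1
        rw [pmean_congr (g := fun S => if φ c \ φ b ⊆ S then (1 : ℝ) else 0) fun S _ =>
          if_congr ((union_comm S (φ b)).symm ▸ sdiff_le_iff.symm : φ c ⊆ S ∪ φ b ↔ φ c \ φ b ⊆ S)
            rfl rfl,
          pmean_subset_indicator (sdiff_subset_sdiff (hU c (mem_insert_of_mem hcT)) le_rfl)]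
      rcases le_total 0 (1 - s * η) with hpos | hneg
      · exact mul_le_mul h1 h2 hpos (hG0.trans h1)
      · refine (mul_nonpos_of_nonneg_of_nonpos hG0 hneg).trans (mul_nonneg ?_ ?_) <;>
          exact pmean_nonneg hp fun S _ => prod_nonneg fun c _ => (factor_bounds hs0 hs1 c _).1
    have hgood : pmean p U (avoidWeight φ (insert b T) s) ≤
        G * Real.exp (-s * π + s ^ 2 * (π * η)) := by
      rw [hstep]
      refine le_trans ?_ (mul_le_mul_of_nonneg_left (Real.add_one_le_exp _) hG0)
      linarith [mul_le_mul_of_nonneg_left hlow hs0]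
    refine hgood.trans ?_
    rw [hG]
    refine (mul_le_mul_of_nonneg_right (ih fun c hc => hU c (mem_insert_of_mem hc))
      (Real.exp_nonneg _)).trans ?_
    rw [← Real.exp_add]
    refine Real.exp_le_exp.2 ?_
    rw [sum_insert hb, sum_insert hb, ← hπ]
    have hterm : ∀ (b c : β), 0 ≤ (∏ i ∈ φ b, p i) * ∏ i ∈ φ c \ φ b, p i := fun b c =>
      mul_nonneg (prod_nonneg fun i _ => (hp i).1) (prod_nonneg fun i _ => (hp i).1)
    have hmono : ∀ a, ∑ c ∈ T.filter (fun c => c ≠ a ∧ ¬ Disjoint (φ c) (φ a)),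
        (∏ i ∈ φ a, p i) * ∏ i ∈ φ c \ φ a, p i ≤
        ∑ c ∈ (insert b T).filter (fun c => c ≠ a ∧ ¬ Disjoint (φ c) (φ a)),
          (∏ i ∈ φ a, p i) * ∏ i ∈ φ c \ φ a, p i := fun a =>
      sum_le_sum_of_subset_of_nonneg (filter_subset_filter _ (subset_insert b T))
        fun c _ _ => hterm a c
    have hlast : π * η ≤ ∑ c ∈ (insert b T).filter (fun c => c ≠ b ∧ ¬ Disjoint (φ c) (φ b)),
        π * ∏ i ∈ φ c \ φ b, p i := by
      rw [hη, mul_sum]
      refine sum_le_sum_of_subset_of_nonneg (fun c hc => ?_) fun c _ _ => hπ ▸ hterm b c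
      obtain ⟨hc1, hc2⟩ := mem_filter.1 (hE ▸ hc)
      exact mem_filter.2 ⟨mem_insert_of_mem hc1, fun e => hb (e ▸ hc1), hc2⟩
    have hs2 : 0 ≤ s ^ 2 := sq_nonneg s
    nlinarith [mul_le_mul_of_nonneg_left (sum_le_sum fun a (_ : a ∈ T) => hmono a) hs2,
      mul_le_mul_of_nonneg_left hlast hs2]

/-- **At most `x` configurations.** -/
theorem pmean_few_le (hp : IsWeight p) (T : Finset β) (hT : ∀ b ∈ T, φ b ⊆ U) (x : ℕ) :
    pmean p U (fun S => if (T.filter fun b => φ b ⊆ S).card ≤ x then 1 else 0) ≤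
      2 ^ x * Real.exp (-(1 / 2) * (∑ b ∈ T, ∏ i ∈ φ b, p i) + (1 / 2) ^ 2 *
        ∑ b ∈ T, ∑ c ∈ T.filter (fun c => c ≠ b ∧ ¬ Disjoint (φ c) (φ b)),
          (∏ i ∈ φ b, p i) * ∏ i ∈ φ c \ φ b, p i) := by
  refine le_trans ?_ (mul_le_mul_of_nonneg_left
    (pmean_avoidWeight_le hp (by norm_num) (by norm_num) T hT) (by positivity))
  rw [← pmean_const_mul]
  refine pmean_mono hp fun S _ => ?_
  have e : avoidWeight φ T (1 / 2) S = (1 / 2 : ℝ) ^ (T.filter fun b => φ b ⊆ S).card := by
    rw [avoidWeight, ← prod_filter_mul_prod_filter_not T (fun b => φ b ⊆ S),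
      prod_eq_one (s := T.filter fun b => ¬ φ b ⊆ S) fun b hb => by
        rw [if_neg (mem_filter.1 hb).2, mul_zero, sub_zero], mul_one, ← prod_const]
    exact prod_congr rfl fun b hb => by rw [if_pos (mem_filter.1 hb).2]; norm_num
  rw [e]
  split_ifs with h
  · refine le_trans ?_ (mul_le_mul_of_nonneg_left
      (pow_le_pow_of_le_one (by norm_num) (by norm_num) h) (by positivity))
    rw [← mul_pow]; norm_num
  · positivity

theorem succ_mul_sum_powersetCard_le (T : Finset β) {x : β → ℝ} (hx : ∀ b ∈ T, 0 ≤ x b) (k : ℕ) :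
    ((k + 1 : ℕ) : ℝ) * ∑ C ∈ T.powersetCard (k + 1), ∏ b ∈ C, x b ≤
      (∑ b ∈ T, x b) * ∑ C ∈ T.powersetCard k, ∏ b ∈ C, x b := by
  have h1 : ((k + 1 : ℕ) : ℝ) * ∑ C ∈ T.powersetCard (k + 1), ∏ b ∈ C, x b =
      ∑ b ∈ T, x b * ∑ C ∈ (T.powersetCard (k + 1)).filter (fun C => b ∈ C),
        ∏ c ∈ C.erase b, x c := by
    simp only [mul_sum, sum_filter]
    rw [sum_comm]
    refine sum_congr rfl fun C hC => ?_
    obtain ⟨hCT, hcard⟩ := mem_powersetCard.1 hC
    rw [← sum_subset hCT fun b _ hb => by simp [hb], sum_congr rfl fun b hb => by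
      rw [if_pos hb, mul_prod_erase _ x hb], sum_const, nsmul_eq_mul, hcard]
  rw [h1, sum_mul]
  refine sum_le_sum fun b hb => mul_le_mul_of_nonneg_left ?_ (hx b hb)
  rw [← sum_image (g := fun C : Finset β => C.erase b) (f := fun C => ∏ c ∈ C, x c)
    fun C hC C' hC' e => by
      rw [← insert_erase (mem_filter.1 hC).2, ← insert_erase (mem_filter.1 hC').2]
      exact congrArg (insert b) e]
  refine sum_le_sum_of_subset_of_nonneg (fun C hC => ?_) fun C hC _ =>
    prod_nonneg fun c hc => hx c ((mem_powersetCard.1 hC).1 hc)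
  obtain ⟨C', hC', rfl⟩ := mem_image.1 hC
  obtain ⟨hC1, hC2⟩ := mem_filter.1 hC'
  obtain ⟨hCT, hcard⟩ := mem_powersetCard.1 hC1
  refine mem_powersetCard.2 ⟨(erase_subset _ _).trans hCT, ?_⟩
  rw [card_erase_of_mem hC2, hcard]
  rfl

/-- **`k` disjoint configurations.** -/
theorem pmean_disjoint_le (hp : IsWeight p) (T : Finset β) (hT : ∀ b ∈ T, φ b ⊆ U) (k : ℕ)
    (P : Finset ι → Prop) [DecidablePred P] (hP : ∀ S, S ⊆ U → P S →
      ∃ C ∈ T.powersetCard k, (C : Set β).PairwiseDisjoint φ ∧ ∀ b ∈ C, φ b ⊆ S) :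
    pmean p U (fun S => if P S then 1 else 0) ≤
      (∑ b ∈ T, ∏ i ∈ φ b, p i) ^ k / k.factorial := by
  classical
  obtain ⟨D, hD⟩ : ∃ D : Finset (Finset β),
      D = (T.powersetCard k).filter fun C : Finset β => (C : Set β).PairwiseDisjoint φ := ⟨_, rfl⟩
  have h1 : pmean p U (fun S => if P S then 1 else 0) ≤
      ∑ C ∈ D, ∏ b ∈ C, ∏ i ∈ φ b, p i := by
    refine (pmean_mono hp (g := fun S => ∑ C ∈ D, if C.biUnion φ ⊆ S then (1 : ℝ) else 0)
      fun S hS => ?_).trans (le_of_eq ?_)
    · have hnn : ∀ C ∈ D, (0 : ℝ) ≤ if C.biUnion φ ⊆ S then 1 else 0 := fun C _ => by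
        split_ifs <;> norm_num
      split_ifs with h
      · obtain ⟨C, hC, hdis, hsub⟩ := hP S hS h
        refine le_trans (le_of_eq ?_) (single_le_sum hnn (hD ▸ mem_filter.2 ⟨hC, hdis⟩ : C ∈ D))
        rw [if_pos (biUnion_subset.2 hsub)]
      · exact sum_nonneg hnn
    · rw [pmean_sum]
      refine sum_congr rfl fun C hC => ?_
      obtain ⟨hC1, hC2⟩ := mem_filter.1 (hD ▸ hC)
      rw [pmean_subset_indicator (biUnion_subset.2 fun b hb => hT b ((mem_powersetCard.1 hC1).1 hb)),
        prod_biUnion hC2]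
  refine h1.trans ?_
  have hx : ∀ b ∈ T, 0 ≤ ∏ i ∈ φ b, p i := fun b _ => prod_nonneg fun i _ => (hp i).1
  refine (sum_le_sum_of_subset_of_nonneg (hD ▸ filter_subset _ _) fun C hC _ =>
    prod_nonneg fun b hb => hx b ((mem_powersetCard.1 hC).1 hb)).trans ?_
  clear h1 hP hD
  induction k with
  | zero => simp
  | succ k ih =>
    rw [le_div_iff₀ (Nat.cast_pos.2 (Nat.factorial_pos _))] at ih ⊢
    have h2 := mul_le_mul_of_nonneg_right (succ_mul_sum_powersetCard_le T hx k)
      (Nat.cast_nonneg (α := ℝ) k.factorial)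
    rw [pow_succ', Nat.factorial_succ, Nat.cast_mul]
    nlinarith [mul_le_mul_of_nonneg_left ih (sum_nonneg hx)]

end FA.ErdosTetali
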