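import Fermat.Agent.ErdosTetali.Space
import Mathlib.Analysis.SpecialFunctions.Log.Basic
import Mathlib.Analysis.SpecialFunctions.Pow.Real
import Mathlib.Analysis.Convex.SpecificFunctions.Basic
import Mathlib.Data.Fintype.BigOperators
import Mathlib.Data.Finset.Sort

/-!
# Solutions of linear equations in a random set

For the density `(log a / a ^ (h - 1)) ^ (1 / h)` the expected number of solutions of `∑ c i a i = n`
in `ℓ` distinct variables is `O (log n · n ^ (ℓ / h - 1))`. A set in which no equation in fewer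
variables has many disjoint solutions has boundedly many solutions of each.
-/

set_option autoImplicit false

noncomputable section

namespace FA.ErdosTetali

open Finset

/-- `1 + log (a + 1)`. -/
def lg (a : ℕ) : ℝ := 1 + Real.log ((a : ℝ) + 1)

theorem one_le_lg (a : ℕ) : 1 ≤ lg a := by
  have : 0 ≤ Real.log ((a : ℝ) + 1) := Real.log_nonneg (by linarith [(Nat.cast_nonneg' a : (0 : ℝ) ≤ a)])
  rw [lg]; linarith

theorem lg_pos (a : ℕ) : 0 < lg a := lt_of_lt_of_le one_pos (one_le_lg a)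

theorem lg_mono {a b : ℕ} (h : a ≤ b) : lg a ≤ lg b := by
  have h1 : (a : ℝ) + 1 ≤ (b : ℝ) + 1 := by exact_mod_cast Nat.add_le_add_right h 1
  have h2 := Real.log_le_log (by positivity) h1
  rw [lg, lg]; linarith

/-- The probability that `a` lies in the set. -/
def density (h : ℕ) (C : ℝ) (a : ℕ) : ℝ :=
  min 1 (C * lg a ^ (1 / (h : ℝ)) * ((a : ℝ) + 1) ^ (1 / (h : ℝ) - 1))

variable {h ℓ : ℕ} {C : ℝ}

theorem isWeight_density (hC : 0 ≤ C) : IsWeight (density h C) := fun a =>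
  ⟨le_min zero_le_one (mul_nonneg (mul_nonneg hC (Real.rpow_nonneg (lg_pos a).le _))
    (Real.rpow_nonneg (by positivity) _)), min_le_left _ _⟩

theorem sum_biUnion_le_sum {α β : Type*} [DecidableEq β] (s : Finset α) (t : α → Finset β)
    (f : β → ℝ) (hf : ∀ b, 0 ≤ f b) : ∑ b ∈ s.biUnion t, f b ≤ ∑ a ∈ s, ∑ b ∈ t a, f b := by
  classical
  induction s using Finset.induction with
  | empty => simp
  | insert a s ha ih =>
    rw [biUnion_insert, sum_insert ha]
    refine le_trans (sum_union_inter (s₁ := t a) (s₂ := s.biUnion t) (f := f) |>.symm ▸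
      le_add_of_nonneg_right (sum_nonneg fun b _ => hf b) :
        ∑ b ∈ t a ∪ s.biUnion t, f b ≤ ∑ b ∈ t a, f b + ∑ b ∈ s.biUnion t, f b) ?_
    exact add_le_add le_rfl ih

theorem sum_rpow_le {t : ℝ} (ht0 : 0 < t) (ht1 : t ≤ 1) (m : ℕ) :
    ∑ a ∈ range m, ((a : ℝ) + 1) ^ (t - 1) ≤ t⁻¹ * (m : ℝ) ^ t := by
  have hstep : ∀ x : ℕ, t * ((x : ℝ) + 1) ^ (t - 1) ≤ ((x : ℝ) + 1) ^ t - (x : ℝ) ^ t := by
    intro x
    have hx : (0 : ℝ) < (x : ℝ) + 1 := by positivity
    have hs : -1 ≤ -(1 / ((x : ℝ) + 1)) := by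
      rw [neg_le_neg_iff, div_le_one hx]
      linarith [(Nat.cast_nonneg' x : (0 : ℝ) ≤ x)]
    have h1 := rpow_one_add_le_one_add_mul_self hs ht0.le ht1
    rw [show 1 + -(1 / ((x : ℝ) + 1)) = (x : ℝ) / ((x : ℝ) + 1) by field_simp; ring,
      Real.div_rpow (Nat.cast_nonneg' x) hx.le, div_le_iff₀ (Real.rpow_pos_of_pos hx t)] at h1
    rw [Real.rpow_sub_one hx.ne']
    have h2 : (1 + t * -(1 / ((x : ℝ) + 1))) * ((x : ℝ) + 1) ^ t =
        ((x : ℝ) + 1) ^ t - t * (((x : ℝ) + 1) ^ t / ((x : ℝ) + 1)) := by ring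
    linarith
  rw [inv_mul_eq_div, le_div_iff₀ ht0, sum_mul]
  refine (sum_le_sum fun a _ => (mul_comm _ t).trans_le (hstep a)).trans (le_of_eq ?_)
  have := sum_range_sub (fun x : ℕ => (x : ℝ) ^ t) m
  simp only [Nat.cast_add, Nat.cast_one, Nat.cast_zero, Real.zero_rpow ht0.ne', sub_zero] at this
  exact this

theorem sum_density_le (hh : 1 ≤ h) (hC : 0 ≤ C) (n : ℕ) :
    ∑ a ∈ range (n + 1), density h C a ≤
      C * h * lg n ^ (1 / (h : ℝ)) * ((n : ℝ) + 1) ^ (1 / (h : ℝ)) := by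
  have hh0 : (0 : ℝ) < h := Nat.cast_pos.2 hh
  refine (sum_le_sum fun a ha => (min_le_right _ _).trans (mul_le_mul_of_nonneg_right
    (mul_le_mul_of_nonneg_left (Real.rpow_le_rpow (lg_pos a).le
      (lg_mono (Nat.le_of_lt_succ (mem_range.1 ha))) (by positivity)) hC)
        (Real.rpow_nonneg (by positivity) _))).trans ?_
  rw [← mul_sum]
  refine (mul_le_mul_of_nonneg_left (sum_rpow_le (t := 1 / (h : ℝ)) (by positivity)
    ((div_le_one hh0).2 (Nat.one_le_cast.2 hh)) (n + 1))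
      (mul_nonneg hC (Real.rpow_nonneg (lg_pos n).le _))).trans (le_of_eq ?_)
  rw [one_div, inv_inv]
  push_cast
  ring

/-- The solutions of `∑ c i a i = n` in distinct natural numbers at most `n`. -/
def sols (c : Fin ℓ → ℕ) (n : ℕ) : Finset (Fin ℓ → ℕ) :=
  (Fintype.piFinset fun _ => range (n + 1)).filter fun a =>
    Function.Injective a ∧ ∑ i, c i * a i = n

theorem mem_sols {c : Fin ℓ → ℕ} {n : ℕ} {a : Fin ℓ → ℕ} :
    a ∈ sols c n ↔ (∀ i, a i ≤ n) ∧ Function.Injective a ∧ ∑ i, c i * a i = n := by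
  simp [sols, Fintype.mem_piFinset]

/-- The coefficients lie in `[1, h]`. -/
def CoeffBox (h : ℕ) (c : Fin ℓ → ℕ) : Prop := ∀ i, 1 ≤ c i ∧ c i ≤ h

/-- **The expected number of solutions.** -/
theorem exists_sum_weight_le (hh : 1 ≤ h) (hC : 1 ≤ C) :
    ∃ K : ℝ, 0 < K ∧ ∀ ℓ, 1 ≤ ℓ → ℓ ≤ h → ∀ c : Fin ℓ → ℕ, CoeffBox h c → ∀ n : ℕ,
      ∑ a ∈ sols c n, ∏ i, density h C (a i) ≤
        K * lg n * ((n : ℝ) + 1) ^ ((ℓ : ℝ) / h - 1) := by
  have hh0 : (0 : ℝ) < h := Nat.cast_pos.2 hh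
  have hh1 : (1 : ℝ) ≤ h := Nat.one_le_cast.2 hh
  refine ⟨(h : ℝ) * (C * h) ^ h * (h : ℝ) ^ 2, by positivity, fun ℓ hℓ hℓh c hc n => ?_⟩
  obtain ⟨k, rfl⟩ : ∃ k, ℓ = k + 1 := ⟨ℓ - 1, by omega⟩
  obtain ⟨t, ht⟩ : ∃ t : ℝ, t = 1 / (h : ℝ) := ⟨_, rfl⟩
  have ht0 : 0 < t := ht ▸ by positivity
  have ht1 : t ≤ 1 := ht ▸ (div_le_one hh0).2 hh1
  have hn1 : (0 : ℝ) < (n : ℝ) + 1 := by positivity
  have hw := isWeight_density (h := h) (C := C) (by linarith)
  obtain ⟨T, hT⟩ : ∃ T : Fin (k + 1) → Finset (Fin (k + 1) → ℕ),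
      T = fun j => (sols c n).filter fun a => n ≤ h ^ 2 * a j := ⟨_, rfl⟩
  have hcover : ∀ a ∈ sols c n, ∃ j, a ∈ T j := by
    intro a ha
    obtain ⟨-, -, hsum⟩ := mem_sols.1 ha
    obtain ⟨j, -, hj⟩ := exists_max_image univ a univ_nonempty
    refine ⟨j, by
      rw [hT]
      refine mem_filter.2 ⟨ha, ?_⟩
      calc n = ∑ i, c i * a i := hsum.symm
        _ ≤ ∑ _i : Fin (k + 1), h * a j :=
            sum_le_sum fun i hi => Nat.mul_le_mul (hc i).2 (hj i hi)
        _ ≤ h ^ 2 * a j := by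
            rw [sum_const, card_univ, Fintype.card_fin, smul_eq_mul, sq, mul_assoc]
            exact Nat.mul_le_mul_right _ hℓh⟩
  have hbound : ∀ j, ∑ a ∈ T j, ∏ i, density h C (a i) ≤
      (C * (h : ℝ) ^ 2 * lg n ^ t * ((n : ℝ) + 1) ^ (t - 1)) *
        (C * h * lg n ^ t * ((n : ℝ) + 1) ^ t) ^ k := by
    intro j
    have hj : ∀ a ∈ T j, density h C (a j) ≤
        C * (h : ℝ) ^ 2 * lg n ^ t * ((n : ℝ) + 1) ^ (t - 1) := by
      intro a ha
      obtain ⟨ha1, ha2⟩ := mem_filter.1 (show a ∈ (sols c n).filter _ from hT ▸ ha)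
      have hle := (mem_sols.1 ha1).1 j
      rw [density, ← ht]
      refine (min_le_right _ _).trans ?_
      rw [show C * (h : ℝ) ^ 2 * lg n ^ t * ((n : ℝ) + 1) ^ (t - 1) =
        C * lg n ^ t * ((h : ℝ) ^ 2 * ((n : ℝ) + 1) ^ (t - 1)) by ring]
      refine mul_le_mul (mul_le_mul_of_nonneg_left
        (Real.rpow_le_rpow (lg_pos _).le (lg_mono hle) ht0.le) (by linarith)) ?_
        (Real.rpow_nonneg (by positivity) _)
        (mul_nonneg (by linarith) (Real.rpow_nonneg (lg_pos n).le _))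
      have h2 : ((n : ℝ) + 1) / (h : ℝ) ^ 2 ≤ (a j : ℝ) + 1 := by
        rw [div_le_iff₀ (by positivity)]
        have : n + 1 ≤ (a j + 1) * h ^ 2 := by
          have := Nat.one_le_pow 2 h hh
          rw [add_mul, one_mul, mul_comm]; omega
        exact_mod_cast this
      refine (Real.rpow_le_rpow_of_nonpos (by positivity) h2 (by linarith)).trans ?_
      rw [Real.div_rpow hn1.le (by positivity), div_eq_mul_inv, mul_comm ((h : ℝ) ^ 2),
        ← Real.rpow_neg (by positivity)]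
      refine mul_le_mul_of_nonneg_left ?_ (Real.rpow_nonneg hn1.le _)
      exact (Real.rpow_le_rpow_of_exponent_le (one_le_pow₀ hh1) (by linarith)).trans
        (Real.rpow_one _).le
    have hinj : Set.InjOn (fun a : Fin (k + 1) → ℕ => fun i => a (j.succAbove i)) (T j) := by
      intro a ha b hb e
      have ha' := (mem_sols.1 (mem_filter.1 (show a ∈ (sols c n).filter _ from hT ▸ ha)).1).2.2
      have hb' := (mem_sols.1 (mem_filter.1 (show b ∈ (sols c n).filter _ from hT ▸ hb)).1).2.2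
      have e' : ∀ i, a (j.succAbove i) = b (j.succAbove i) := congrFun e
      rw [Fin.sum_univ_succAbove _ j] at ha' hb'
      simp only [e'] at ha'
      have haj : a j = b j := Nat.eq_of_mul_eq_mul_left (hc j).1 (by omega)
      funext i
      rcases Fin.eq_self_or_eq_succAbove j i with rfl | ⟨i', rfl⟩
      exacts [haj, e' i']
    calc ∑ a ∈ T j, ∏ i, density h C (a i)
        = ∑ a ∈ T j, density h C (a j) * ∏ i, density h C (a (j.succAbove i)) :=
          sum_congr rfl fun a _ => Fin.prod_univ_succAbove _ j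
      _ ≤ ∑ a ∈ T j, (C * (h : ℝ) ^ 2 * lg n ^ t * ((n : ℝ) + 1) ^ (t - 1)) *
            ∏ i, density h C (a (j.succAbove i)) :=
          sum_le_sum fun a ha =>
            mul_le_mul_of_nonneg_right (hj a ha) (prod_nonneg fun i _ => (hw _).1)
      _ ≤ _ := by
          rw [← mul_sum]
          refine mul_le_mul_of_nonneg_left ?_ (by positivity [lg_pos n])
          rw [← sum_image (f := fun b => ∏ i, density h C (b i)) hinj]
          refine (sum_le_sum_of_subset_of_nonneg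
            (t := Fintype.piFinset fun _ : Fin k => range (n + 1)) (fun b hb => ?_)
              fun b _ _ => prod_nonneg fun i _ => (hw _).1).trans ?_
          · obtain ⟨a, ha, rfl⟩ := mem_image.1 hb
            have ha' := mem_sols.1 (mem_filter.1 (show a ∈ (sols c n).filter _ from hT ▸ ha)).1
            exact Fintype.mem_piFinset.2 fun i => mem_range.2 (Nat.lt_succ_of_le (ha'.1 _))
          · rw [← prod_univ_sum (fun _ : Fin k => range (n + 1)) fun _ a => density h C a,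
              prod_const, card_univ, Fintype.card_fin]
            exact pow_le_pow_left₀ (sum_nonneg fun a _ => (hw a).1)
              (ht ▸ sum_density_le hh (by linarith) n) k
  refine (?_ : _ ≤ ∑ j, ∑ a ∈ T j, ∏ i, density h C (a i)).trans ?_
  · classical
    refine (sum_le_sum_of_subset_of_nonneg (t := univ.biUnion T)
      (fun a ha => mem_biUnion.2 ((hcover a ha).imp fun j hj => ⟨mem_univ j, hj⟩))
      fun a _ _ => prod_nonneg fun i _ => (hw _).1).trans ?_
    exact sum_biUnion_le_sum _ _ _ fun a => prod_nonneg fun i _ => (hw _).1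
  refine (sum_le_card_nsmul _ _ _ fun j _ => hbound j).trans ?_
  rw [card_univ, Fintype.card_fin, nsmul_eq_mul]
  have hL := one_le_lg n
  have hCh : 1 ≤ C * h := one_le_mul_of_one_le_of_one_le hC hh1
  have hkt : ((k + 1 : ℕ) : ℝ) * t ≤ 1 := by
    rw [ht, mul_one_div, div_le_one hh0]; exact Nat.cast_le.2 hℓh
  calc ((k + 1 : ℕ) : ℝ) * ((C * (h : ℝ) ^ 2 * lg n ^ t * ((n : ℝ) + 1) ^ (t - 1)) *
        (C * h * lg n ^ t * ((n : ℝ) + 1) ^ t) ^ k)
      = ((k + 1 : ℕ) : ℝ) * (C * (C * h) ^ k) * (h : ℝ) ^ 2 * (lg n ^ t) ^ (k + 1) *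
          (((n : ℝ) + 1) ^ t) ^ k * ((n : ℝ) + 1) ^ (t - 1) := by ring
    _ ≤ (h : ℝ) * (C * h) ^ h * (h : ℝ) ^ 2 * lg n *
          (((n : ℝ) + 1) ^ t) ^ k * ((n : ℝ) + 1) ^ (t - 1) := by
        have h1 : C * (C * h) ^ k ≤ (C * h) ^ h :=
          (mul_le_mul_of_nonneg_right (le_mul_of_one_le_right (by linarith) hh1)
            (by positivity)).trans ((pow_succ' _ k).symm.le.trans (pow_le_pow_right₀ hCh hℓh))
        have h2 : (lg n ^ t) ^ (k + 1) ≤ lg n := by
          rw [← Real.rpow_natCast _ (k + 1), ← Real.rpow_mul (by linarith), mul_comm]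
          exact (Real.rpow_le_rpow_of_exponent_le hL hkt).trans (Real.rpow_one _).le
        gcongr
    _ = _ := by
        rw [← Real.rpow_natCast _ k, ← Real.rpow_mul hn1.le, mul_assoc _ _ (_ ^ (t - 1)),
          ← Real.rpow_add hn1]
        congr 2
        rw [ht]; push_cast; ring

variable {A : Set ℕ}

open Classical in
/-- The solutions in `A`. -/
def solsIn (A : Set ℕ) (c : Fin ℓ → ℕ) (n : ℕ) : Finset (Fin ℓ → ℕ) :=
  (sols c n).filter fun a => ∀ i, a i ∈ A

/-- No `k` solutions in `A` without common entries. -/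
def NoDisjoint (A : Set ℕ) (c : Fin ℓ → ℕ) (n k : ℕ) : Prop :=
  ∀ T ∈ (solsIn A c n).powersetCard k,
    ¬ (T : Set (Fin ℓ → ℕ)).PairwiseDisjoint fun a => univ.image a

theorem card_solsIn_le_of_noDisjoint {k K : ℕ} {c : Fin (ℓ + 1) → ℕ} (hc : ∀ i, 1 ≤ c i) {n : ℕ}
    (hk : NoDisjoint A c n k)
    (hK : ∀ (i : Fin (ℓ + 1)) (m : ℕ), (solsIn A (fun j => c (i.succAbove j)) m).card ≤ K) :
    (solsIn A c n).card ≤ k * (ℓ + 1) * ((ℓ + 1) * K) := by
  classical
  obtain ⟨D, hD⟩ : ∃ D : Finset (Finset (Fin (ℓ + 1) → ℕ)), D = (solsIn A c n).powerset.filter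
      fun T : Finset (Fin (ℓ + 1) → ℕ) =>
        (T : Set (Fin (ℓ + 1) → ℕ)).PairwiseDisjoint fun a => univ.image a := ⟨_, rfl⟩
  obtain ⟨T, hT, hmax⟩ := exists_max_image D Finset.card ⟨∅, by simp [hD]⟩
  rw [hD, mem_filter, mem_powerset] at hT
  have hTk : T.card < k := by
    by_contra hcon
    obtain ⟨T', hT', hcard⟩ := exists_subset_card_eq (not_lt.1 hcon)
    exact hk T' (mem_powersetCard.2 ⟨hT'.trans hT.1, hcard⟩) (hT.2.subset hT')
  obtain ⟨V, hV⟩ : ∃ V, V = T.biUnion fun a => univ.image a := ⟨_, rfl⟩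
  have hmeet : ∀ a ∈ solsIn A c n, ∃ i, a i ∈ V := by
    intro a ha
    by_contra hcon
    push Not at hcon
    have haT : a ∉ T := fun h =>
      hcon 0 (hV ▸ mem_biUnion.2 ⟨a, h, mem_image_of_mem a (mem_univ 0)⟩)
    have := hmax (insert a T) (hD ▸ mem_filter.2 ⟨mem_powerset.2 (insert_subset ha hT.1), ?_⟩)
    · rw [card_insert_of_notMem haT] at this; omega
    rw [coe_insert, Set.pairwiseDisjoint_insert]
    refine ⟨hT.2, fun b hb _ => disjoint_left.2 fun x hxa hxb => ?_⟩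
    obtain ⟨i, -, rfl⟩ := mem_image.1 hxa
    exact hcon i (hV ▸ mem_biUnion.2 ⟨b, hb, hxb⟩)
  refine (card_le_card (t := V.biUnion fun x => univ.biUnion fun i : Fin (ℓ + 1) =>
    (solsIn A c n).filter fun a => a i = x) fun a ha => ?_).trans ?_
  · obtain ⟨i, hi⟩ := hmeet a ha
    exact mem_biUnion.2 ⟨a i, hi, mem_biUnion.2 ⟨i, mem_univ i, mem_filter.2 ⟨ha, rfl⟩⟩⟩
  refine (card_biUnion_le_card_mul V _ ((ℓ + 1) * K) fun x _ => ?_).trans
    (Nat.mul_le_mul_right _ ?_)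
  · refine (card_biUnion_le_card_mul univ _ K fun i _ => ?_).trans (by simp)
    refine le_trans (card_le_card_of_injOn (fun a j => a (i.succAbove j)) (fun a ha => ?_)
      fun a ha b hb e => ?_) (hK i (n - c i * x))
    · obtain ⟨ha', hax⟩ := mem_filter.1 ha
      obtain ⟨has, haA⟩ := mem_filter.1 ha'
      obtain ⟨-, hinj, hsum⟩ := mem_sols.1 has
      rw [Fin.sum_univ_succAbove _ i, hax] at hsum
      refine mem_filter.2 ⟨mem_sols.2 ⟨fun j => ?_, hinj.comp Fin.succAbove_right_injective,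
        by simp only; omega⟩, fun j => haA _⟩
      have h1 : c (i.succAbove j) * a (i.succAbove j) ≤
          ∑ j, c (i.succAbove j) * a (i.succAbove j) :=
        single_le_sum (f := fun j => c (i.succAbove j) * a (i.succAbove j))
          (fun j _ => Nat.zero_le _) (mem_univ j)
      have h2 := Nat.le_mul_of_pos_left (a (i.succAbove j)) (hc (i.succAbove j))
      show a (i.succAbove j) ≤ n - c i * x
      omega
    · funext j
      rcases Fin.eq_self_or_eq_succAbove i j with rfl | ⟨j', rfl⟩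
      exacts [(mem_filter.1 ha).2.trans (mem_filter.1 hb).2.symm, congrFun e j']
  · rw [hV]
    refine (card_biUnion_le_card_mul T _ (ℓ + 1) fun a _ => ?_).trans
      (Nat.mul_le_mul_right _ hTk.le)
    exact card_image_le.trans (by simp)

/-- **Boundedly many solutions of the shorter equations.** -/
theorem exists_card_solsIn_le (h n₀ k : ℕ) : ∀ ℓ, ℓ < h → ∃ K : ℕ, ∀ A : Set ℕ,
    (∀ n, n₀ ≤ n → ∀ ℓ, 1 ≤ ℓ → ℓ < h → ∀ c : Fin ℓ → ℕ, CoeffBox h c → NoDisjoint A c n k) →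
      ∀ c : Fin ℓ → ℕ, CoeffBox h c → ∀ n, (solsIn A c n).card ≤ K := by
  intro ℓ
  induction ℓ with
  | zero =>
    exact fun _ => ⟨1, fun A _ c _ n => card_le_one.2 fun a _ b _ => funext fun i => i.elim0⟩
  | succ ℓ ih =>
    intro hℓ
    obtain ⟨K, hK⟩ := ih (by omega)
    refine ⟨max ((n₀ + 1) ^ (ℓ + 1)) (k * (ℓ + 1) * ((ℓ + 1) * K)), fun A hA c hc n => ?_⟩
    rcases Nat.lt_or_ge n n₀ with hn | hn
    · classical
      rw [solsIn]
      refine le_trans (le_trans (card_le_card ((filter_subset _ _).trans (filter_subset _ _))) ?_)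
        (le_max_left _ _)
      rw [Fintype.card_piFinset_const, card_range]
      exact Nat.pow_le_pow_left (by omega) _
    · exact (card_solsIn_le_of_noDisjoint (fun i => (hc i).1)
        (hA n hn (ℓ + 1) (by omega) hℓ c hc)
        fun i m => hK A hA _ (fun j => hc _) m).trans (le_max_right _ _)

open Classical in
/-- The ordered representations of `n` by `h` elements of `A`. -/
def repCount (A : Set ℕ) (h n : ℕ) : ℕ :=
  ((Fintype.piFinset fun _ : Fin h => range (n + 1)).filter fun a =>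
    (∀ i, a i ∈ A) ∧ ∑ i, a i = n).card

/-- **Representations and distinct solutions.** -/
theorem repCount_le (A : Set ℕ) (h n K : ℕ)
    (hK : ∀ ℓ, ℓ < h → ∀ c : Fin ℓ → ℕ, CoeffBox h c → (solsIn A c n).card ≤ K) :
    repCount A h n ≤ h ^ h * (solsIn A (fun _ : Fin h => 1) n).card + (h + 1) * h ^ h * K := by
  classical
  obtain ⟨M, hM⟩ : ∃ M, M = (solsIn A (fun _ : Fin h => 1) n).card := ⟨_, rfl⟩
  obtain ⟨Surj, hS⟩ : ∃ s : ∀ ℓ : ℕ, Finset (Fin h → Fin ℓ),
      s = fun ℓ => univ.filter fun σ : Fin h → Fin ℓ => Function.Surjective σ := ⟨_, rfl⟩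
  obtain ⟨G, hG⟩ : ∃ G : ∀ ℓ : ℕ, Finset (Fin h → ℕ), G = fun ℓ => (Surj ℓ).biUnion fun σ =>
      (solsIn A (fun j => (univ.filter fun i => σ i = j).card) n).image fun b => b ∘ σ :=
    ⟨_, rfl⟩
  have hsub : ((Fintype.piFinset fun _ : Fin h => range (n + 1)).filter fun a =>
      (∀ i, a i ∈ A) ∧ ∑ i, a i = n) ⊆ (range (h + 1)).biUnion G := by
    intro a ha
    obtain ⟨hab, haA, hsum⟩ := mem_filter.1 ha
    obtain ⟨V, hV⟩ : ∃ V, V = univ.image a := ⟨_, rfl⟩
    obtain ⟨e, he⟩ : ∃ e : Fin V.card ≃o V, e = V.orderIsoOfFin rfl := ⟨_, rfl⟩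
    have haV : ∀ i, a i ∈ V := fun i => hV ▸ mem_image_of_mem a (mem_univ i)
    obtain ⟨σ, hσ⟩ : ∃ σ : Fin h → Fin V.card, σ = fun i => e.symm ⟨a i, haV i⟩ := ⟨_, rfl⟩
    obtain ⟨b, hb⟩ : ∃ b : Fin V.card → ℕ, b = fun j => (e j : ℕ) := ⟨_, rfl⟩
    have hba : ∀ i, b (σ i) = a i := fun i => by simp [hb, hσ]
    have hsurj : Function.Surjective σ := fun j => by
      obtain ⟨i, -, hi⟩ := mem_image.1 (hV ▸ (e j).2 : (e j : ℕ) ∈ univ.image a)
      exact ⟨i, by rw [hσ]; exact e.symm_apply_eq.2 (Subtype.ext hi)⟩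
    refine mem_biUnion.2 ⟨V.card, mem_range.2 (Nat.lt_succ_of_le ?_), ?_⟩
    · rw [hV]; exact card_image_le.trans (by simp)
    rw [hG, hS]
    refine mem_biUnion.2 ⟨σ, mem_filter.2 ⟨mem_univ _, hsurj⟩, mem_image.2 ⟨b, ?_, funext hba⟩⟩
    refine mem_filter.2 ⟨mem_sols.2 ⟨fun j => ?_, ?_, ?_⟩, fun j => ?_⟩
    · obtain ⟨i, rfl⟩ := hsurj j
      rw [hba]; exact Nat.lt_succ_iff.1 (mem_range.1 (Fintype.mem_piFinset.1 hab i))
    · rw [hb]; exact fun x y hxy => e.injective (Subtype.ext hxy)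
    · rw [← hsum, ← sum_fiberwise univ σ fun i => a i]
      refine sum_congr rfl fun j _ => ?_
      rw [sum_congr rfl fun i hi => by rw [← hba i, (mem_filter.1 hi).2], sum_const, smul_eq_mul]
    · obtain ⟨i, rfl⟩ := hsurj j
      rw [hba]; exact haA i
  refine (card_le_card hsub).trans (card_biUnion_le.trans ?_)
  rw [sum_range_succ, add_comm]
  have hcardS : ∀ ℓ, ℓ ≤ h → (Surj ℓ).card ≤ h ^ h := fun ℓ hℓ => by
    rw [hS]
    exact (card_filter_le _ _).trans (by simpa using Nat.pow_le_pow_left hℓ h)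
  refine add_le_add ?_ ?_
  · rw [hG, ← hM]
    refine (card_biUnion_le_card_mul _ _ M fun σ hσ => card_image_le.trans (le_of_eq ?_)).trans
      (Nat.mul_le_mul_right _ (hcardS h le_rfl))
    have hbij : Function.Bijective σ :=
      (Finite.surjective_iff_bijective).1 (mem_filter.1 (hS ▸ hσ :)).2
    rw [hM]
    congr 2
    funext j
    obtain ⟨i, rfl⟩ := hbij.2 j
    rw [card_eq_one]
    exact ⟨i, ext fun x => by simp [hbij.1.eq_iff]⟩
  · refine (sum_le_card_nsmul _ _ (h ^ h * K) fun ℓ hℓ => ?_).trans ?_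
    · have hℓ' := mem_range.1 hℓ
      rw [hG]
      refine (card_biUnion_le_card_mul _ _ K fun σ hσ => card_image_le.trans
        (hK ℓ hℓ' _ fun j => ⟨?_, ?_⟩)).trans (Nat.mul_le_mul_right _ (hcardS ℓ hℓ'.le))
      · obtain ⟨i, hi⟩ := (mem_filter.1 (hS ▸ hσ :)).2 j
        exact card_pos.2 ⟨i, by simp [hi]⟩
      · exact (card_filter_le _ _).trans (by simp)
    · rw [card_range, smul_eq_mul, mul_assoc]
      exact Nat.mul_le_mul_right _ (Nat.le_succ h)

end FA.ErdosTetali
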